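/-
Programme T1B (row 38 / S44), cell R2/BRANDT (owner helper36): THE RESIDUE VECTOR `ρ`, abstractly.

Vocabulary = helper3's `Hecke3.IsPData` (presentations `p D = div f` of `p`-torsion classes) and
helper80's `Hol80.HasConstScaling` / `SlopePlace` (a valuation subring `V = O₁` of the function field
`F₀ / K₀`, its residue map `res : V →+* k` into the function field `k / κ` of the component `X₁`, a
subfield `C` of constants with the same value group as `V`).

`vE : ι → Place κ k` are the NODE PLACES.  For `f ≠ 0` write `f = c * u`, `c ∈ C`, `u ∈ Vˣ`; then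
    `lam f := (ord_{vE e} (res u) mod p)_e`
is independent of the choices, multiplicative, trivial on `C` and on `p`-th powers, and
    `rho : Pic0.torsion K₀ F₀ p →+ (ι → ZMod p)`,  `cls D ↦ lam f`  for `p D = div f`
is well defined and additive (`rho_eq`).  `rho_map_of_rel` is the formal equivariance (the analogue of
`Hecke3.delta_map_of_rel`).
-/
import Mathlib
import Fermat.Agent.T1B.Hecke3.Delta
import Fermat.Agent.T1B.Hol80.TwoChart
import Fermat.Agent.T1B.Brandt36.Abstract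

set_option autoImplicit false
set_option linter.unusedSectionVars false

noncomputable section

namespace Fermat.Agent.T1B.Brandt36

open AlgebraicCurve Fermat.Agent.T1B.Hecke3 Fermat.Agent.T1B.Hol80

variable {K₀ F₀ : Type*} [Field K₀] [Field F₀] [Algebra K₀ F₀]
variable (V : ValuationSubring F₀) {κ k : Type*} [Field κ] [Field k] [Algebra κ k]
  (res : ↥V →+* k) {ι : Type*} (vE : ι → Place κ k) (p : ℕ) (C : Subfield F₀)

/-- The inputs of the construction of `rho`. -/
structure RhoInputs : Prop where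
  /-- the value group of `V` is the value group of the constants `C` -/
  scal : HasConstScaling V C
  /-- the constants of the function field lie in `C` -/
  constC : ∀ c : K₀, algebraMap K₀ F₀ c ∈ C
  /-- functions without zeros and poles are constants -/
  const : ∀ f : F₀, f ≠ 0 → (∀ v : Place K₀ F₀, v.ord f = 0) → ∃ c : K₀, f = algebraMap K₀ F₀ c
  /-- the residues of the constant units have order `0` at the nodes -/
  ordC : ∀ u : (↥V)ˣ, ((u : ↥V) : F₀) ∈ C → ∀ e, (vE e).ord (res (u : ↥V)) = 0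

variable {V res vE p C}

theorem coe_units_inv' (e : (↥V)ˣ) : (((e⁻¹ : (↥V)ˣ) : ↥V) : F₀) = ((e : ↥V) : F₀)⁻¹ := by
  have h1 : ((e : ↥V) : F₀) * (((e⁻¹ : (↥V)ˣ) : ↥V) : F₀) = 1 :=
    congrArg Subtype.val e.mul_inv
  exact eq_inv_of_mul_eq_one_right h1

theorem coe_units_ne_zero' (e : (↥V)ˣ) : ((e : ↥V) : F₀) ≠ 0 := fun h0 =>
  e.ne_zero (Subtype.ext h0)

theorem res_units_ne_zero (u : (↥V)ˣ) : res (u : ↥V) ≠ 0 := (u.isUnit.map res).ne_zero

/-- the residue vector of a unit of `V`. -/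
theorem resVec_res_mul (u w : (↥V)ˣ) :
    resVec vE p (res ((u * w : (↥V)ˣ) : ↥V)) =
      resVec vE p (res (u : ↥V)) + resVec vE p (res (w : ↥V)) := by
  rw [Units.val_mul, map_mul, resVec_mul vE p (res_units_ne_zero u) (res_units_ne_zero w)]

/-- **Independence of the normalisation.** -/
theorem resVec_res_eq (H : RhoInputs (K₀ := K₀) V res vE C) {u u' : (↥V)ˣ} {c c' : F₀}
    (hc : c ∈ C) (hc' : c' ∈ C) (hc0 : c ≠ 0)
    (h : c * ((u : ↥V) : F₀) = c' * ((u' : ↥V) : F₀)) :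
    resVec vE p (res (u : ↥V)) = resVec vE p (res (u' : ↥V)) := by
  have hu0 := coe_units_ne_zero' u
  have hu'0 := coe_units_ne_zero' u'
  -- `w = u'⁻¹ u` is a constant unit
  have hw : (((u'⁻¹ * u : (↥V)ˣ) : ↥V) : F₀) ∈ C := by
    have e1 : (((u'⁻¹ * u : (↥V)ˣ) : ↥V) : F₀) = c' * c⁻¹ := by
      rw [Units.val_mul]
      push_cast
      rw [coe_units_inv']
      field_simp
      linear_combination h
    rw [e1]
    exact mul_mem hc' (inv_mem hc)
  have h0 : resVec vE p (res ((u'⁻¹ * u : (↥V)ˣ) : ↥V)) = 0 :=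
    resVec_eq_zero_of_ord_eq_zero vE p (H.ordC _ hw)
  have h1 : u = u' * (u'⁻¹ * u) := by rw [mul_inv_cancel_left]
  have h2 := resVec_res_mul (vE := vE) (p := p) (res := res) u' (u'⁻¹ * u)
  rw [← h1, h0, add_zero] at h2
  exact h2

variable (V res vE p C)

open Classical in
/-- the residue vector of a nonzero function, normalised by a constant. -/
def lam (f : F₀) : ι → ZMod p :=
  if h : ∃ (c : F₀) (u : (↥V)ˣ), c ∈ C ∧ c ≠ 0 ∧ f = c * ((u : ↥V) : F₀) then
    resVec vE p (res (h.choose_spec.choose : ↥V)) else 0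

variable {V res vE p C}

theorem lam_eq (H : RhoInputs (K₀ := K₀) V res vE C) {f c : F₀} {u : (↥V)ˣ} (hc : c ∈ C)
    (hc0 : c ≠ 0) (hf : f = c * ((u : ↥V) : F₀)) :
    lam V res vE p C f = resVec vE p (res (u : ↥V)) := by
  have hex : ∃ (c : F₀) (u : (↥V)ˣ), c ∈ C ∧ c ≠ 0 ∧ f = c * ((u : ↥V) : F₀) := ⟨c, u, hc, hc0, hf⟩
  unfold lam
  rw [dif_pos hex]
  obtain ⟨h1, h2, h3⟩ := hex.choose_spec.choose_spec
  exact resVec_res_eq H h1 hc h2 (h3.symm.trans hf)

theorem exists_rep (H : RhoInputs (K₀ := K₀) V res vE C) {f : F₀} (hf : f ≠ 0) :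
    ∃ (c : F₀) (u : (↥V)ˣ), c ∈ C ∧ c ≠ 0 ∧ f = c * ((u : ↥V) : F₀) := by
  obtain ⟨c, hc, hc0, u, hu⟩ := H.scal f hf
  exact ⟨c, u, hc, hc0, hu⟩

theorem lam_mul (H : RhoInputs (K₀ := K₀) V res vE C) {f g : F₀} (hf : f ≠ 0) (hg : g ≠ 0) :
    lam V res vE p C (f * g) = lam V res vE p C f + lam V res vE p C g := by
  obtain ⟨c, u, hc, hc0, hfu⟩ := exists_rep H hf
  obtain ⟨d, w, hd, hd0, hgw⟩ := exists_rep H hg
  have hfg : f * g = (c * d) * (((u * w : (↥V)ˣ) : ↥V) : F₀) := by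
    rw [hfu, hgw, Units.val_mul]
    push_cast
    ring
  rw [lam_eq H (mul_mem hc hd) (mul_ne_zero hc0 hd0) hfg, lam_eq H hc hc0 hfu,
    lam_eq H hd hd0 hgw, resVec_res_mul]

theorem lam_const (H : RhoInputs (K₀ := K₀) V res vE C) {c : F₀} (hc : c ∈ C) (hc0 : c ≠ 0) :
    lam V res vE p C c = 0 := by
  have h : c = c * (((1 : (↥V)ˣ) : ↥V) : F₀) := by simp
  rw [lam_eq H hc hc0 h, Units.val_one, map_one, resVec_one]

theorem lam_pow (H : RhoInputs (K₀ := K₀) V res vE C) {g : F₀} (hg : g ≠ 0) (n : ℕ) :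
    lam V res vE p C (g ^ n) = n • lam V res vE p C g := by
  induction n with
  | zero =>
    rw [pow_zero, zero_smul]
    exact lam_const H (one_mem C) one_ne_zero
  | succ n ih => rw [pow_succ, lam_mul H (pow_ne_zero n hg) hg, ih, succ_nsmul]

theorem lam_pow_self (H : RhoInputs (K₀ := K₀) V res vE C) {g : F₀} (hg : g ≠ 0) :
    lam V res vE p C (g ^ p) = 0 := by
  rw [lam_pow H hg]
  funext e
  simp only [Pi.smul_apply, Pi.zero_apply, nsmul_eq_mul]
  rw [ZMod.natCast_self, zero_mul]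

/-- **Independence of the presentation.** -/
theorem IsPData.lam_eq (H : RhoInputs (K₀ := K₀) V res vE C) {x : Pic0 K₀ F₀}
    {D D' : Divisor.degZero (K := K₀) (F := F₀)} {f f' : F₀}
    (h : IsPData (K := K₀) p x D f) (h' : IsPData (K := K₀) p x D' f') :
    lam V res vE p C f = lam V res vE p C f' := by
  obtain ⟨hx, hf, hD⟩ := h
  obtain ⟨hx', hf', hD'⟩ := h'
  have hmk : Pic0.mk D = Pic0.mk D' := hx.trans hx'.symm
  have h1 : -D + D' ∈
      (Divisor.principal (K := K₀) (F := F₀)).addSubgroupOf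
        (Divisor.degZero (K := K₀) (F := F₀)) :=
    QuotientAddGroup.eq.1 hmk
  rw [AddSubgroup.mem_addSubgroupOf] at h1
  obtain ⟨g, hg, hgD⟩ := h1
  have hgp : g ^ p ≠ 0 := pow_ne_zero p hg
  have hfg : f * g ^ p ≠ 0 := mul_ne_zero hf hgp
  have hq : f' * (f * g ^ p)⁻¹ ≠ 0 := mul_ne_zero hf' (inv_ne_zero hfg)
  have hord : ∀ v : Place K₀ F₀, v.ord (f' * (f * g ^ p)⁻¹) = 0 := by
    intro v
    have hgv := hgD v
    have e1 : ((-D + D' : Divisor.degZero (K := K₀) (F := F₀)) : Divisor K₀ F₀) v =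
        -((D : Divisor K₀ F₀) v) + (D' : Divisor K₀ F₀) v := by
      simp
    rw [e1] at hgv
    have hpow : v.ord (g ^ p) = (p : ℤ) * v.ord g := by
      have := v.ord_zpow g (p : ℤ)
      rwa [zpow_natCast] at this
    rw [v.ord_mul hf' (inv_ne_zero hfg), v.ord_inv, v.ord_mul hf hgp, hpow, ← hD v, ← hD' v,
      ← hgv]
    ring
  obtain ⟨c, hc⟩ := H.const _ hq hord
  have hc0 : algebraMap K₀ F₀ c ≠ 0 := by rw [← hc]; exact hq
  have hf'eq : f' = algebraMap K₀ F₀ c * (f * g ^ p) := by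
    rw [← hc, mul_assoc, inv_mul_cancel₀ hfg, mul_one]
  rw [hf'eq, lam_mul H hc0 hfg, lam_mul H hf hgp, lam_pow_self H hg,
    lam_const H (H.constC c) hc0, zero_add, add_zero]

variable (V res vE p C)

open Classical in
/-- The underlying function of `rho`. -/
def rhoFun (x : Pic0 K₀ F₀) : ι → ZMod p :=
  if h : ∃ D f, IsPData (K := K₀) p x D f then lam V res vE p C h.choose_spec.choose else 0

variable {V res vE p C}

theorem rhoFun_eq (H : RhoInputs (K₀ := K₀) V res vE C) {x : Pic0 K₀ F₀}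
    {D : Divisor.degZero (K := K₀) (F := F₀)} {f : F₀} (h : IsPData (K := K₀) p x D f) :
    rhoFun V res vE p C x = lam V res vE p C f := by
  have hex : ∃ D f, IsPData (K := K₀) p x D f := ⟨D, f, h⟩
  unfold rhoFun
  rw [dif_pos hex]
  exact IsPData.lam_eq H hex.choose_spec.choose_spec h

variable (V res vE p C)

/-- **The residue vector** `rho : Pic0[p] →+ (ι → ZMod p)`. -/
def rho (H : RhoInputs (K₀ := K₀) V res vE C) : Pic0.torsion K₀ F₀ p →+ (ι → ZMod p) where
  toFun x := rhoFun V res vE p C (x : Pic0 K₀ F₀)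
  map_zero' := by
    show rhoFun V res vE p C (0 : Pic0 K₀ F₀) = 0
    rw [rhoFun_eq H isPData_zero]
    exact lam_const H (one_mem C) one_ne_zero
  map_add' x y := by
    obtain ⟨D, f, h⟩ := exists_isPData x.2
    obtain ⟨E, g, h'⟩ := exists_isPData y.2
    show rhoFun V res vE p C ((x : Pic0 K₀ F₀) + (y : Pic0 K₀ F₀)) = _
    rw [rhoFun_eq H (h.add h')]
    show _ = rhoFun V res vE p C (x : Pic0 K₀ F₀) + rhoFun V res vE p C (y : Pic0 K₀ F₀)
    rw [rhoFun_eq H h, rhoFun_eq H h', lam_mul H h.2.1 h'.2.1]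

variable {V res vE p C}

/-- **Computation of `rho`**: `rho (cls D) = lam f` whenever `p D = div f`. -/
theorem rho_eq_lam (H : RhoInputs (K₀ := K₀) V res vE C) (x : Pic0.torsion K₀ F₀ p)
    {D : Divisor.degZero (K := K₀) (F := F₀)} {f : F₀}
    (h : IsPData (K := K₀) p (x : Pic0 K₀ F₀) D f) :
    rho V res vE p C H x = lam V res vE p C f :=
  rhoFun_eq H h

/-- **Computation of `rho`**: `rho (cls D) e = ord_{vE e} (res u) mod p` whenever `p D = div f`,
`f = c * u` with `c` a constant and `u` a unit of `V`.  (The shape of helper80's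
`Hol80.ord_res_unit_of_twisted`.) -/
theorem rho_eq (H : RhoInputs (K₀ := K₀) V res vE C) (x : Pic0.torsion K₀ F₀ p)
    {D : Divisor.degZero (K := K₀) (F := F₀)} {f : F₀}
    (h : IsPData (K := K₀) p (x : Pic0 K₀ F₀) D f) {c : F₀} {u : (↥V)ˣ} (hc : c ∈ C)
    (hf : f = c * ((u : ↥V) : F₀)) (e : ι) :
    rho V res vE p C H x e = (((vE e).ord (res (u : ↥V)) : ℤ) : ZMod p) := by
  have hc0 : c ≠ 0 := by
    rintro rfl
    rw [zero_mul] at hf
    exact h.2.1 hf
  rw [rho_eq_lam H x h, lam_eq H hc hc0 hf]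
  rfl

/-- **Formal equivariance.**  Let `T` be an additive endomorphism of `Pic0` such that for every
presentation `(D, f)` of a `p`-torsion class `x` there is a presentation `(D', f')` of `T x` with
`lam f' = Θ (lam f)`.  Then `rho (T x) = Θ (rho x)`. -/
theorem rho_map_of_rel (H : RhoInputs (K₀ := K₀) V res vE C) (T : Pic0 K₀ F₀ →+ Pic0 K₀ F₀)
    (Θ : (ι → ZMod p) →+ (ι → ZMod p))
    (hT : ∀ (x : Pic0 K₀ F₀) (D : Divisor.degZero (K := K₀) (F := F₀)) (f : F₀),
      IsPData (K := K₀) p x D f →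
        ∃ D' f', IsPData (K := K₀) p (T x) D' f' ∧
          lam V res vE p C f' = Θ (lam V res vE p C f))
    (x : Pic0.torsion K₀ F₀ p) (hTx : T (x : Pic0 K₀ F₀) ∈ Pic0.torsion K₀ F₀ p) :
    rho V res vE p C H ⟨T (x : Pic0 K₀ F₀), hTx⟩ = Θ (rho V res vE p C H x) := by
  obtain ⟨D, f, h⟩ := exists_isPData x.2
  obtain ⟨D', f', h', hrel⟩ := hT _ D f h
  rw [rho_eq_lam H ⟨T (x : Pic0 K₀ F₀), hTx⟩ h', rho_eq_lam H x h, hrel]

end Fermat.Agent.T1B.Brandt36
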