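/-
Programme T1B (row 38 / S44), cell R2/BRANDT (owner helper36): THE ABSTRACT BRANDT STEP.

Generic function fields `F ⊂ F'` over `K` (in the application `K = κ̄`, `F = k₁` = the function
field of `X₀(M')_κ̄`, `F' = k₁'` = the function field of `X₀(M' ℓ)_κ̄`), two `K`-algebra maps
`φ ψ : F →ₐ[K] F'` (`ψ = ᾱ` the inclusion, `φ = β̄ : q ↦ q^ℓ`), a family of places
`vE : ι → Place K F` (the NODES = supersingular places), a prime `p`.

* `ord_normAlong`      : `ord_v (N_ψ y) = ∑_{w ∣ v} ord_w y · f(w ∣ v)`   (from the norm formula);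
* `ord_normAlong_map`  : `ord_v (N_ψ (φ g)) = ∑_{w ∣ v} e_φ(w) · ord_{φ^* w} g · f(w ∣ v)`;
* `resVec vE p g`      : the residue vector `(ord_{vE e} g mod p)_e`;
* `brandt φ ψ vE p`    : the Brandt operator `(B x)_e = ∑_{w ∣ vE e via ψ} x_{φ^* w}`
                         (terms with `φ^* w` not a node are dropped);
* `resVec_normAlong`   : `resVec (N_ψ (φ g)) = B (resVec g)` if `ψ` has inertia degrees `1` over the
                         nodes, `φ` is unramified at the `w` over the nodes with `φ^* w` a node, and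
                         `p ∣ ord g` at the non-nodes `φ^* w` (HOL);
* `brandt_one`         : `B 𝟙 = n 𝟙` if every `w` over a node has `φ^* w` a node and every node has
                         exactly `n` places over it;
* `card_fiberAlong`    : the number of places over `v` is `[F' : ψ F]` if `ψ` is unramified over `v`
                         and all places have degree one.
-/
import Mathlib
import Fermat.Agent.ES.HECKE.PointFormula28

set_option autoImplicit false
set_option linter.unusedSectionVars false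
set_option linter.style.haveILetI false

noncomputable section

namespace Fermat.Agent.T1B.Brandt36

open AlgebraicCurve Fermat.Agent.ES.HECKE.PointFormula28

section Generic

variable {K F F' : Type*} [Field K] [Field F] [Field F'] [Algebra K F] [Algebra K F']
  [HasPrincipalDivisors K F']

/-- **`ord_v (N_ψ y) = ∑_{w ∣ v} ord_w y · f(w ∣ v)`.** -/
theorem ord_normAlong (ψ : F →ₐ[K] F') (hψ : ψ.toRingHom.IsIntegral) (hfin : FiniteAlong K ψ)
    (hN : NormFormulaAlong K ψ hfin) {y : F'} (hy : y ≠ 0) (v : Place K F) :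
    v.ord (normAlong ψ y) =
      ∑ w ∈ Place.fiberAlong ψ hψ v, w.ord y * (w.inertiaDegAlong ψ hψ : ℤ) := by
  classical
  obtain ⟨D, hD, -⟩ := HasPrincipalDivisors.exists_divisor (K := K) y hy
  letI := algebraAlong ψ
  haveI := isScalarTower_along ψ
  haveI := isIntegral_along ψ hψ
  haveI : Module.Finite F F' := hfin
  have h1 : Divisor.pushforward F D v = v.ord (Algebra.norm F y) := hN y hy D hD v
  have h2 := Divisor.pushforward_apply (F := F) D v
  show v.ord (Algebra.norm F y) = ∑ w ∈ Place.fiber F' v, w.ord y * (w.inertiaDeg F : ℤ)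
  rw [← h1, h2, ← Finset.sum_filter]
  refine Finset.sum_subset_zero_on_sdiff ?_ ?_ ?_
  · intro w hw
    rw [Finset.mem_filter] at hw
    exact Place.mem_fiber.2 hw.2
  · intro w hw
    rw [Finset.mem_sdiff, Finset.mem_filter, Place.mem_fiber] at hw
    have hw0 : D w = 0 := by
      by_contra h0
      exact hw.2 ⟨Finsupp.mem_support_iff.2 h0, hw.1⟩
    rw [← hD w, hw0, zero_mul]
  · intro w _
    rw [hD w]

/-- **`ord_v (N_ψ (φ g)) = ∑_{w ∣ v} e_φ(w) · ord_{φ^* w} g · f(w ∣ v)`.** -/
theorem ord_normAlong_map (φ ψ : F →ₐ[K] F') (hφ : φ.toRingHom.IsIntegral)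
    (hψ : ψ.toRingHom.IsIntegral) (hfin : FiniteAlong K ψ) (hN : NormFormulaAlong K ψ hfin)
    {g : F} (hg : g ≠ 0) (v : Place K F) :
    v.ord (normAlong ψ (φ g)) =
      ∑ w ∈ Place.fiberAlong ψ hψ v,
        (w.ramificationIndexAlong φ : ℤ) * (w.restrictAlong φ hφ).ord g *
          (w.inertiaDegAlong ψ hψ : ℤ) := by
  have hφg : φ g ≠ 0 := by
    rw [Ne, map_eq_zero_iff φ φ.toRingHom.injective]
    exact hg
  rw [ord_normAlong ψ hψ hfin hN hφg v]
  refine Finset.sum_congr rfl fun w _ => ?_
  rw [Place.ord_restrictAlong φ hφ w g]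

/-- **The number of places over `v`** is the degree, if `ψ` is unramified over `v` and all places
have degree one. -/
theorem card_fiberAlong (ψ : F →ₐ[K] F') (hψ : ψ.toRingHom.IsIntegral)
    (hFI : FundamentalIdentityAlong K ψ hψ) (hdeg' : ∀ w : Place K F', w.deg = 1)
    (v : Place K F) (hv : v.deg = 1)
    (hunr : ∀ w ∈ Place.fiberAlong ψ hψ v, w.ramificationIndexAlong ψ = 1) :
    (Place.fiberAlong ψ hψ v).card = finrankAlong K ψ := by
  have h := sum_ramificationIndexAlong ψ hψ hFI hdeg' v hv
  have h2 : ∑ w ∈ Place.fiberAlong ψ hψ v, (w.ramificationIndexAlong ψ : ℤ) =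
      ((Place.fiberAlong ψ hψ v).card : ℤ) := by
    rw [Finset.sum_congr rfl fun w hw => by rw [hunr w hw, Nat.cast_one], Finset.sum_const,
      nsmul_eq_mul, mul_one]
  rw [h2] at h
  exact_mod_cast h

end Generic

/-! ### Residue vectors and the Brandt operator -/

section Brandt

variable {K F F' : Type*} [Field K] [Field F] [Field F'] [Algebra K F] [Algebra K F']

variable {ι : Type*} (vE : ι → Place K F) (p : ℕ)

/-- **The residue vector** `(ord_{vE e} g mod p)_e` of a function. -/
def resVec (g : F) : ι → ZMod p := fun e => (((vE e).ord g : ℤ) : ZMod p)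

@[simp] theorem resVec_apply (g : F) (e : ι) :
    resVec vE p g e = (((vE e).ord g : ℤ) : ZMod p) := rfl

theorem resVec_one : resVec vE p (1 : F) = 0 := by
  funext e
  simp [resVec]

theorem resVec_mul {g h : F} (hg : g ≠ 0) (hh : h ≠ 0) :
    resVec vE p (g * h) = resVec vE p g + resVec vE p h := by
  funext e
  simp only [resVec_apply, Pi.add_apply]
  rw [(vE e).ord_mul hg hh, Int.cast_add]

theorem resVec_inv (g : F) : resVec vE p g⁻¹ = -resVec vE p g := by
  funext e
  simp only [resVec_apply, Pi.neg_apply]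
  rw [(vE e).ord_inv, Int.cast_neg]

theorem resVec_pow (g : F) (n : ℕ) : resVec vE p (g ^ n) = n • resVec vE p g := by
  funext e
  simp only [resVec_apply, Pi.smul_apply]
  have h := (vE e).ord_zpow g (n : ℤ)
  rw [zpow_natCast] at h
  rw [h, Int.cast_mul, Int.cast_natCast, nsmul_eq_mul]

/-- `p`-th powers have residue vector zero. -/
theorem resVec_pow_self (g : F) : resVec vE p (g ^ p) = 0 := by
  rw [resVec_pow]
  funext e
  simp only [Pi.smul_apply, Pi.zero_apply, nsmul_eq_mul]
  rw [ZMod.natCast_self, zero_mul]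

/-- a function whose orders at the nodes are divisible by `p` has residue vector zero. -/
theorem resVec_eq_zero_of_dvd {g : F} (h : ∀ e, (p : ℤ) ∣ (vE e).ord g) : resVec vE p g = 0 := by
  funext e
  simp only [resVec_apply, Pi.zero_apply]
  exact (ZMod.intCast_zmod_eq_zero_iff_dvd _ p).2 (h e)

/-- functions of order `0` at the nodes (e.g. constants) have residue vector zero. -/
theorem resVec_eq_zero_of_ord_eq_zero {g : F} (h : ∀ e, (vE e).ord g = 0) :
    resVec vE p g = 0 :=
  resVec_eq_zero_of_dvd vE p fun e => by rw [h e]; exact dvd_zero _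

variable [HasPrincipalDivisors K F']
  (φ ψ : F →ₐ[K] F') (hφ : φ.toRingHom.IsIntegral) (hψ : ψ.toRingHom.IsIntegral)

open Classical in
/-- **The Brandt operator** `(B x)_e = ∑_{w ∣ vE e via ψ} x_{φ^* w}`; the places `w` with `φ^* w`
not a node do not contribute. -/
def brandt : (ι → ZMod p) →+ (ι → ZMod p) where
  toFun x e := ∑ w ∈ Place.fiberAlong ψ hψ (vE e),
    if h : ∃ e', vE e' = w.restrictAlong φ hφ then x h.choose else 0
  map_zero' := by
    funext e
    simp
  map_add' x y := by
    funext e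
    simp only [Pi.add_apply]
    rw [← Finset.sum_add_distrib]
    refine Finset.sum_congr rfl fun w _ => ?_
    split_ifs <;> simp

open Classical in
theorem brandt_apply (x : ι → ZMod p) (e : ι) :
    brandt vE p φ ψ hφ hψ x e = ∑ w ∈ Place.fiberAlong ψ hψ (vE e),
      if h : ∃ e', vE e' = w.restrictAlong φ hφ then x h.choose else 0 := rfl

/-- **`B 𝟙 = n 𝟙`** if every place over a node maps to a node under `φ` and every node has exactly
`n` places over it. -/
theorem brandt_one (n : ℕ)
    (hd : ∀ e, ∀ w ∈ Place.fiberAlong ψ hψ (vE e), ∃ e', vE e' = w.restrictAlong φ hφ)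
    (hcard : ∀ e, (Place.fiberAlong ψ hψ (vE e)).card = n) :
    brandt vE p φ ψ hφ hψ (fun _ => 1) = (n : ℤ) • (fun _ => (1 : ZMod p)) := by
  classical
  funext e
  rw [brandt_apply, Finset.sum_congr rfl fun w hw => dif_pos (hd e w hw), Finset.sum_const,
    hcard e]
  simp

/-- **The Brandt step**: `resVec (N_ψ (φ g)) = B (resVec g)`. -/
theorem resVec_normAlong (hfin : FiniteAlong K ψ)
    (hN : NormFormulaAlong K ψ hfin) {g : F} (hg : g ≠ 0)
    (hf : ∀ e, ∀ w ∈ Place.fiberAlong ψ hψ (vE e), w.inertiaDegAlong ψ hψ = 1)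
    (hram : ∀ e, ∀ w ∈ Place.fiberAlong ψ hψ (vE e), (∃ e', vE e' = w.restrictAlong φ hφ) →
      w.ramificationIndexAlong φ = 1)
    (hol : ∀ e, ∀ w ∈ Place.fiberAlong ψ hψ (vE e), (¬ ∃ e', vE e' = w.restrictAlong φ hφ) →
      (p : ℤ) ∣ (w.restrictAlong φ hφ).ord g) :
    resVec vE p (normAlong ψ (φ g)) = brandt vE p φ ψ hφ hψ (resVec vE p g) := by
  classical
  funext e
  rw [resVec_apply, ord_normAlong_map φ ψ hφ hψ hfin hN hg (vE e), brandt_apply, Int.cast_sum]
  refine Finset.sum_congr rfl fun w hw => ?_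
  rw [hf e w hw, Nat.cast_one, mul_one]
  by_cases h : ∃ e', vE e' = w.restrictAlong φ hφ
  · rw [dif_pos h, hram e w hw h, Nat.cast_one, one_mul, resVec_apply, h.choose_spec]
  · rw [dif_neg h, Int.cast_mul]
    rw [(ZMod.intCast_zmod_eq_zero_iff_dvd _ p).2 (hol e w hw h), mul_zero]

end Brandt

end Fermat.Agent.T1B.Brandt36
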