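/-
Programme T1B (row 38 / S44), cell R2/BRANDT (owner helper36): THE BRANDT STEP WITHOUT UNRAMIFIEDNESS.

Same setting as `Abstract.lean` (`φ = β̄`, `ψ = ᾱ : F →ₐ[K] F'`, node places `vE : ι → Place K F`).
The RAMIFICATION-WEIGHTED Brandt operator
    `(B x)_e = ∑_{w ∣ vE e via ψ} e_φ(w) f_ψ(w) x_{φ^* w}`
satisfies `resVec (N_ψ (φ g)) = B (resVec g)` with NO hypothesis on ramification (`resVec_normAlong_W`),
and `B 𝟙 = [F' : ψ F] 𝟙` as soon as `e_φ(w) = e_ψ(w)` for the places `w` over the nodes and these `w`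
map to nodes under `φ` (`brandtW_one`).  Both facts follow from the existence of ONE AUXILIARY
FUNCTION `D ∈ F` (`node_of_aux`):
  * `ord_{vE e} D = c ≠ 0` at every node (the same `c`),
  * `ord_v D = 0` at every place `v` "of the chart" (`Reg v`) which is not a node,
  * `ord_w (φ D) = ord_w (ψ D)` at the places `w` over the nodes (`φ D / ψ D` is a unit there),
  * `φ^* w` lies in the chart for the `w` over the nodes.
(In the application `D` is the reduction of helper79's test element `h0`, an `η`-quotient with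
`v₁ = 0 ≠ v₂`, and `φ D / ψ D` is the reduction of a modular unit of level `M' ℓ`, prime to `p`.)
-/
import Mathlib
import Fermat.Agent.T1B.Brandt36.Abstract

set_option autoImplicit false
set_option linter.unusedSectionVars false
set_option linter.style.haveILetI false

noncomputable section

namespace Fermat.Agent.T1B.Brandt36

open AlgebraicCurve Fermat.Agent.ES.HECKE.PointFormula28

variable {K F F' : Type*} [Field K] [Field F] [Field F'] [Algebra K F] [Algebra K F']
  [HasPrincipalDivisors K F']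
variable {ι : Type*} (vE : ι → Place K F) (p : ℕ)
  (φ ψ : F →ₐ[K] F') (hφ : φ.toRingHom.IsIntegral) (hψ : ψ.toRingHom.IsIntegral)

omit [HasPrincipalDivisors K F'] in
include hψ in
theorem ramificationIndexAlong_pos (w : Place K F') : 0 < w.ramificationIndexAlong ψ := by
  letI := algebraAlong ψ
  haveI := isScalarTower_along ψ
  haveI := isIntegral_along ψ hψ
  exact Place.ramificationIndex_pos (F := F) w

/-- **The auxiliary function**: places over nodes map to nodes, with `e_φ = e_ψ`. -/
theorem node_of_aux (Reg : Place K F → Prop) (D : F) (c : ℤ) (hc : c ≠ 0)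
    (hDE : ∀ e, (vE e).ord D = c)
    (hDoff : ∀ v : Place K F, Reg v → (¬ ∃ e, vE e = v) → v.ord D = 0)
    (hQ : ∀ e, ∀ w ∈ Place.fiberAlong ψ hψ (vE e), w.ord (φ D) = w.ord (ψ D))
    (hReg : ∀ e, ∀ w ∈ Place.fiberAlong ψ hψ (vE e), Reg (w.restrictAlong φ hφ))
    (e : ι) (w : Place K F') (hw : w ∈ Place.fiberAlong ψ hψ (vE e)) :
    (∃ e', vE e' = w.restrictAlong φ hφ) ∧
      w.ramificationIndexAlong φ = w.ramificationIndexAlong ψ := by
  have hwe : w.restrictAlong ψ hψ = vE e := Place.mem_fiberAlong.1 hw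
  have h1 : w.ord (ψ D) = (w.ramificationIndexAlong ψ : ℤ) * c := by
    rw [Place.ord_restrictAlong ψ hψ w D, hwe, hDE e]
  have h2 : w.ord (φ D) =
      (w.ramificationIndexAlong φ : ℤ) * (w.restrictAlong φ hφ).ord D :=
    Place.ord_restrictAlong φ hφ w D
  have hpos : (0 : ℤ) < (w.ramificationIndexAlong ψ : ℤ) := by
    exact_mod_cast ramificationIndexAlong_pos ψ hψ w
  have h3 : (w.ramificationIndexAlong φ : ℤ) * (w.restrictAlong φ hφ).ord D =
      (w.ramificationIndexAlong ψ : ℤ) * c := by rw [← h2, hQ e w hw, h1]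
  have hne : (w.restrictAlong φ hφ).ord D ≠ 0 := by
    intro h0
    rw [h0, mul_zero] at h3
    exact (mul_ne_zero hpos.ne' hc) h3.symm
  have hnode : ∃ e', vE e' = w.restrictAlong φ hφ := by
    by_contra hcon
    exact hne (hDoff _ (hReg e w hw) hcon)
  refine ⟨hnode, ?_⟩
  obtain ⟨e', he'⟩ := hnode
  rw [← he', hDE e'] at h3
  have h4 := mul_right_cancel₀ hc h3
  exact_mod_cast h4

open Classical in
/-- **The ramification-weighted Brandt operator**
`(B x)_e = ∑_{w ∣ vE e via ψ} e_φ(w) f_ψ(w) x_{φ^* w}`. -/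
def brandtW : (ι → ZMod p) →+ (ι → ZMod p) where
  toFun x e := ∑ w ∈ Place.fiberAlong ψ hψ (vE e),
    if h : ∃ e', vE e' = w.restrictAlong φ hφ then
      ((w.ramificationIndexAlong φ * w.inertiaDegAlong ψ hψ : ℕ) : ZMod p) * x h.choose else 0
  map_zero' := by
    funext e
    simp
  map_add' x y := by
    funext e
    simp only [Pi.add_apply]
    rw [← Finset.sum_add_distrib]
    refine Finset.sum_congr rfl fun w _ => ?_
    split_ifs
    · rw [mul_add]
    · rw [add_zero]

open Classical in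
theorem brandtW_apply (x : ι → ZMod p) (e : ι) :
    brandtW vE p φ ψ hφ hψ x e = ∑ w ∈ Place.fiberAlong ψ hψ (vE e),
      if h : ∃ e', vE e' = w.restrictAlong φ hφ then
        ((w.ramificationIndexAlong φ * w.inertiaDegAlong ψ hψ : ℕ) : ZMod p) * x h.choose
      else 0 := rfl

/-- **The Brandt step, weighted form**: `resVec (N_ψ (φ g)) = B (resVec g)`; no hypothesis on
ramification or inertia.  `hol` (vacuous when all `φ^* w` are nodes) : `p ∣ ord g` at the non-nodes
`φ^* w`. -/
theorem resVec_normAlong_W (hfin : FiniteAlong K ψ) (hN : NormFormulaAlong K ψ hfin)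
    {g : F} (hg : g ≠ 0)
    (hol : ∀ e, ∀ w ∈ Place.fiberAlong ψ hψ (vE e), (¬ ∃ e', vE e' = w.restrictAlong φ hφ) →
      (p : ℤ) ∣ (w.restrictAlong φ hφ).ord g) :
    resVec vE p (normAlong ψ (φ g)) = brandtW vE p φ ψ hφ hψ (resVec vE p g) := by
  classical
  funext e
  rw [resVec_apply, ord_normAlong_map φ ψ hφ hψ hfin hN hg (vE e), brandtW_apply, Int.cast_sum]
  refine Finset.sum_congr rfl fun w hw => ?_
  by_cases h : ∃ e', vE e' = w.restrictAlong φ hφ
  · rw [dif_pos h, resVec_apply, h.choose_spec]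
    push_cast
    ring
  · rw [dif_neg h, Int.cast_mul, Int.cast_mul,
      (ZMod.intCast_zmod_eq_zero_iff_dvd _ p).2 (hol e w hw h), mul_zero, zero_mul]

/-- **`B 𝟙 = [F' : ψ F] 𝟙`**, weighted form. -/
theorem brandtW_one (hFI : FundamentalIdentityAlong K ψ hψ) (hdeg' : ∀ w : Place K F', w.deg = 1)
    (hdeg : ∀ e, (vE e).deg = 1)
    (hnode : ∀ e, ∀ w ∈ Place.fiberAlong ψ hψ (vE e), (∃ e', vE e' = w.restrictAlong φ hφ) ∧
      w.ramificationIndexAlong φ = w.ramificationIndexAlong ψ) :
    brandtW vE p φ ψ hφ hψ (fun _ => 1) =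
      (finrankAlong K ψ : ℤ) • (fun _ => (1 : ZMod p)) := by
  classical
  funext e
  rw [brandtW_apply]
  have h1 : ∀ w ∈ Place.fiberAlong ψ hψ (vE e),
      (if h : ∃ e', vE e' = w.restrictAlong φ hφ then
        ((w.ramificationIndexAlong φ * w.inertiaDegAlong ψ hψ : ℕ) : ZMod p) *
          (fun _ : ι => (1 : ZMod p)) h.choose else 0) =
        (((w.ramificationIndexAlong ψ : ℤ)) : ZMod p) := by
    intro w hw
    obtain ⟨hn, he⟩ := hnode e w hw
    rw [dif_pos hn, mul_one, he, inertiaDegAlong_eq_one ψ hψ w (hdeg' w), mul_one]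
    push_cast
    rfl
  rw [Finset.sum_congr rfl h1, ← Int.cast_sum,
    sum_ramificationIndexAlong ψ hψ hFI hdeg' (vE e) (hdeg e)]
  simp

end Fermat.Agent.T1B.Brandt36
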