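/-
Programme T1B (row 38 / S44), cell R2/BRANDT (owner helper36): THE WEIGHTED BRANDT STEP WITHOUT
`HasPrincipalDivisors` IN CHARACTERISTIC `p`.

`Weighted.lean` uses the Prelude `Finset` `Place.fiberAlong`, which only exists under
`[HasPrincipalDivisors K F']`; in characteristic `p` that instance is not (yet) available.  Here the
same statements are proved for the SET fibre `{w | w.restrictAlong ψ hψ = v}` with its finiteness as
an explicit hypothesis `hfib`, the norm formula in the finsum form
    `hord : ord_v (N_ψ f) = ∑ᶠ w : {w // w.restrictAlong ψ hψ = v}, ord_w f`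
(= `Hecke87.NormAlongSep.ord_normAlong_fiber`, places of degree one) and the fundamental identity in
the form `hsum : ∑ᶠ w ∈ {w | w.restrictAlong ψ hψ = v}, e_ψ(w) = n`
(= `Hecke87.NormAlongSep.sum_ramificationIndexAlong`).  All places of `F'` have degree one in the
application (`K = κ̄` algebraically closed), so no inertia degree appears:
    `(B x)_e = ∑_{w ∣ vE e via ψ} e_φ(w) x_{φ^* w}`.

* `node_of_aux_S`       : the auxiliary-function lemma (set fibre form);
* `brandtS`             : the ramification-weighted Brandt operator;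
* `resVec_normAlong_S`  : `resVec (N_ψ (φ g)) = B (resVec g)`;
* `brandtS_one`         : `B 𝟙 = n 𝟙`.
-/
import Mathlib
import Fermat.Agent.T1B.Brandt36.Weighted

set_option autoImplicit false
set_option linter.unusedSectionVars false
set_option linter.style.haveILetI false

noncomputable section

namespace Fermat.Agent.T1B.Brandt36

open AlgebraicCurve Fermat.Agent.ES.HECKE.PointFormula28

variable {K F F' : Type*} [Field K] [Field F] [Field F'] [Algebra K F] [Algebra K F']
variable {ι : Type*} (vE : ι → Place K F) (p : ℕ)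
  (φ ψ : F →ₐ[K] F') (hφ : φ.toRingHom.IsIntegral) (hψ : ψ.toRingHom.IsIntegral)

/-- **The auxiliary function** (set fibre form): places over nodes map to nodes, with
`e_φ = e_ψ`. -/
theorem node_of_aux_S (Reg : Place K F → Prop) (D : F) (c : ℤ) (hc : c ≠ 0)
    (hDE : ∀ e, (vE e).ord D = c)
    (hDoff : ∀ v : Place K F, Reg v → (¬ ∃ e, vE e = v) → v.ord D = 0)
    (hQ : ∀ e, ∀ w : Place K F', w.restrictAlong ψ hψ = vE e → w.ord (φ D) = w.ord (ψ D))
    (hReg : ∀ e, ∀ w : Place K F', w.restrictAlong ψ hψ = vE e → Reg (w.restrictAlong φ hφ))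
    (e : ι) (w : Place K F') (hwe : w.restrictAlong ψ hψ = vE e) :
    (∃ e', vE e' = w.restrictAlong φ hφ) ∧
      w.ramificationIndexAlong φ = w.ramificationIndexAlong ψ := by
  have h1 : w.ord (ψ D) = (w.ramificationIndexAlong ψ : ℤ) * c := by
    rw [Place.ord_restrictAlong ψ hψ w D, hwe, hDE e]
  have h2 : w.ord (φ D) =
      (w.ramificationIndexAlong φ : ℤ) * (w.restrictAlong φ hφ).ord D :=
    Place.ord_restrictAlong φ hφ w D
  have hpos : (0 : ℤ) < (w.ramificationIndexAlong ψ : ℤ) := by
    exact_mod_cast ramificationIndexAlong_pos ψ hψ w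
  have h3 : (w.ramificationIndexAlong φ : ℤ) * (w.restrictAlong φ hφ).ord D =
      (w.ramificationIndexAlong ψ : ℤ) * c := by rw [← h2, hQ e w hwe, h1]
  have hne : (w.restrictAlong φ hφ).ord D ≠ 0 := by
    intro h0
    rw [h0, mul_zero] at h3
    exact (mul_ne_zero hpos.ne' hc) h3.symm
  have hnode : ∃ e', vE e' = w.restrictAlong φ hφ := by
    by_contra hcon
    exact hne (hDoff _ (hReg e w hwe) hcon)
  refine ⟨hnode, ?_⟩
  obtain ⟨e', he'⟩ := hnode
  rw [← he', hDE e'] at h3
  have h4 := mul_right_cancel₀ hc h3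
  exact_mod_cast h4

variable (hfib : ∀ e, {w : Place K F' | w.restrictAlong ψ hψ = vE e}.Finite)

open Classical in
/-- **The ramification-weighted Brandt operator** (set fibre form, places of degree one)
`(B x)_e = ∑_{w ∣ vE e via ψ} e_φ(w) x_{φ^* w}`. -/
def brandtS : (ι → ZMod p) →+ (ι → ZMod p) where
  toFun x e := ∑ w ∈ (hfib e).toFinset,
    if h : ∃ e', vE e' = w.restrictAlong φ hφ then
      ((w.ramificationIndexAlong φ : ℕ) : ZMod p) * x h.choose else 0
  map_zero' := by
    funext e
    simp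
  map_add' x y := by
    funext e
    simp only [Pi.add_apply]
    rw [← Finset.sum_add_distrib]
    refine Finset.sum_congr rfl fun w _ => ?_
    split_ifs
    · rw [mul_add]
    · rw [add_zero]

open Classical in
theorem brandtS_apply (x : ι → ZMod p) (e : ι) :
    brandtS vE p φ ψ hφ hψ hfib x e = ∑ w ∈ (hfib e).toFinset,
      if h : ∃ e', vE e' = w.restrictAlong φ hφ then
        ((w.ramificationIndexAlong φ : ℕ) : ZMod p) * x h.choose
      else 0 := rfl

/-- the finsum over the subtype fibre is the sum over `(hfib e).toFinset`. -/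
theorem finsum_fiber_eq_sum {M : Type*} [AddCommMonoid M] (e : ι) (f : Place K F' → M) :
    ∑ᶠ w : {w : Place K F' // w.restrictAlong ψ hψ = vE e}, f w.1 =
      ∑ w ∈ (hfib e).toFinset, f w := by
  have h1 : ∑ᶠ w : {w : Place K F' // w.restrictAlong ψ hψ = vE e}, f w.1 =
      ∑ᶠ w ∈ {w : Place K F' | w.restrictAlong ψ hψ = vE e}, f w :=
    finsum_set_coe_eq_finsum_mem {w : Place K F' | w.restrictAlong ψ hψ = vE e}
  rw [h1, finsum_mem_eq_finite_toFinset_sum f (hfib e)]

/-- **The Brandt step, weighted set-fibre form**: `resVec (N_ψ (φ g)) = B (resVec g)`. -/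
theorem resVec_normAlong_S
    (hord : ∀ e, ∀ f : F', f ≠ 0 → (vE e).ord (normAlong ψ f) =
      ∑ᶠ w : {w : Place K F' // w.restrictAlong ψ hψ = vE e}, w.1.ord f)
    {g : F} (hg : g ≠ 0)
    (hol : ∀ e, ∀ w : Place K F', w.restrictAlong ψ hψ = vE e →
      (¬ ∃ e', vE e' = w.restrictAlong φ hφ) → (p : ℤ) ∣ (w.restrictAlong φ hφ).ord g) :
    resVec vE p (normAlong ψ (φ g)) = brandtS vE p φ ψ hφ hψ hfib (resVec vE p g) := by
  classical
  funext e
  have hφg : φ g ≠ 0 := by
    rw [Ne, map_eq_zero_iff φ φ.toRingHom.injective]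
    exact hg
  rw [resVec_apply, hord e (φ g) hφg, finsum_fiber_eq_sum vE ψ hψ hfib e (fun w => w.ord (φ g)),
    brandtS_apply, Int.cast_sum]
  refine Finset.sum_congr rfl fun w hw => ?_
  have hwe : w.restrictAlong ψ hψ = vE e := (Set.Finite.mem_toFinset (hfib e)).1 hw
  rw [Place.ord_restrictAlong φ hφ w g]
  by_cases h : ∃ e', vE e' = w.restrictAlong φ hφ
  · rw [dif_pos h, resVec_apply, h.choose_spec]
    push_cast
    ring
  · rw [dif_neg h, Int.cast_mul,
      (ZMod.intCast_zmod_eq_zero_iff_dvd _ p).2 (hol e w hwe h), mul_zero]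

/-- **`B 𝟙 = n 𝟙`**, weighted set-fibre form. -/
theorem brandtS_one (n : ℤ)
    (hsum : ∀ e, ∑ᶠ w ∈ {w : Place K F' | w.restrictAlong ψ hψ = vE e},
      (w.ramificationIndexAlong ψ : ℤ) = n)
    (hnode : ∀ e, ∀ w : Place K F', w.restrictAlong ψ hψ = vE e →
      (∃ e', vE e' = w.restrictAlong φ hφ) ∧
        w.ramificationIndexAlong φ = w.ramificationIndexAlong ψ) :
    brandtS vE p φ ψ hφ hψ hfib (fun _ => 1) = n • (fun _ => (1 : ZMod p)) := by
  classical
  funext e
  rw [brandtS_apply]
  have h1 : ∀ w ∈ (hfib e).toFinset,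
      (if h : ∃ e', vE e' = w.restrictAlong φ hφ then
        ((w.ramificationIndexAlong φ : ℕ) : ZMod p) *
          (fun _ : ι => (1 : ZMod p)) h.choose else 0) =
        (((w.ramificationIndexAlong ψ : ℤ)) : ZMod p) := by
    intro w hw
    have hwe : w.restrictAlong ψ hψ = vE e := (Set.Finite.mem_toFinset (hfib e)).1 hw
    obtain ⟨hn, he⟩ := hnode e w hwe
    rw [dif_pos hn, mul_one, he]
    push_cast
    rfl
  rw [Finset.sum_congr rfl h1, ← Int.cast_sum,
    ← finsum_mem_eq_finite_toFinset_sum (fun w : Place K F' =>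
      (w.ramificationIndexAlong ψ : ℤ)) (hfib e), hsum e]
  simp

end Fermat.Agent.T1B.Brandt36
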