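/-
Programme T1B (row 38 / S44), cell R2/BRANDT (owner helper36): `ρ (T x) = B (ρ x)`, `B 𝟙 = n 𝟙`,
GENERIC FORM (the hypotheses (a)–(e) of helper45's report 997 as explicit inputs).

Characteristic `0` (level `N = M' p`): `F₀ / K₀` with the Gauss valuation ring `V = O₁`, residue map
`res : V →+* k`, constants `C`, node places `vE : ι → Place κ k` (`Rho.lean`), and the correspondence
`T = α₀_* β₀^*` for `α₀ β₀ : F₀ →ₐ[K₀] F₀'` (level `N ℓ`).
Characteristic `p`: `k' / κ` (the function field of `X₀(M' ℓ)_κ̄`) with `ᾱ β̄ : k →ₐ[κ] k'`.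

Inputs:
* (a) `f_{T x} = N_{α₀}(β₀ f_x)`                 : proved here from the norm formula `hN₀` in char `0`;
* (b) `hb`  reduction commutes with the norm      : `lam (N_{α₀}(β₀ u)) = resVec (N_ᾱ (β̄ (res u)))`
            for units `u` of `V`, and `hC` : the norm of a constant has `lam = 0`;
* (c) `hN`  the norm formula along `ᾱ` in char `p`, `hf` : inertia degrees `1` over the nodes;
* (d) `hd`  every place of `k'` over a node (via `ᾱ`) maps to a node under `β̄`;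
* (e) `hram` : `β̄` is unramified at the places over the nodes; for `B 𝟙` : `ᾱ` is unramified over the
            nodes and `[k' : ᾱ k] = n`.
Outputs: `rho_correspondence` (= `ρ_T` of `Local66.LocalGeom`, generic form) and `brandt_one_of_unram`
(= `B_one`).
-/
import Mathlib
import Fermat.Agent.T1B.Brandt36.Rho
import Fermat.Agent.T1B.Brandt36.Weighted

set_option autoImplicit false
set_option linter.unusedSectionVars false
set_option linter.style.haveILetI false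

noncomputable section

namespace Fermat.Agent.T1B.Brandt36

open AlgebraicCurve Fermat.Agent.T1B.Hecke3 Fermat.Agent.T1B.Hol80
  Fermat.Agent.ES.HECKE.PointFormula28

section NormAlong

variable {K F F' : Type*} [Field K] [Field F] [Field F'] [Algebra K F] [Algebra K F']

theorem normAlong_mul (ψ : F →ₐ[K] F') (a b : F') :
    normAlong ψ (a * b) = normAlong ψ a * normAlong ψ b := by
  letI := algebraAlong ψ
  exact map_mul (Algebra.norm F) a b

theorem normAlong_ne_zero' (ψ : F →ₐ[K] F') (hfin : FiniteAlong K ψ) {y : F'} (hy : y ≠ 0) :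
    normAlong ψ y ≠ 0 := by
  letI := algebraAlong ψ
  haveI : Module.Finite F F' := hfin
  exact Algebra.norm_ne_zero_iff.mpr hy

/-- **(a)** a presentation of `T x`, `T = ψ_* φ^*`: `(T D, N_ψ (φ f))`. -/
theorem isPData_correspondence [HasPrincipalDivisors K F'] (φ ψ : F →ₐ[K] F')
    (hφ : φ.toRingHom.IsIntegral) (hψ : ψ.toRingHom.IsIntegral)
    (hFI : FundamentalIdentityAlong K φ hφ) (hfin : FiniteAlong K ψ)
    (hN : NormFormulaAlong K ψ hfin) {p : ℕ} {x : Pic0 K F}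
    {D : Divisor.degZero (K := K) (F := F)} {f : F} (h : IsPData (K := K) p x D f) :
    IsPData (K := K) p (Pic0.correspondence φ ψ hφ hψ hFI hfin hN x)
      (Pic0.degZeroCorrespondence φ ψ hφ hψ hFI D) (normAlong ψ (φ f)) := by
  obtain ⟨hx, hf, hD⟩ := h
  have hφf : φ f ≠ 0 := by
    rw [Ne, map_eq_zero_iff φ φ.toRingHom.injective]
    exact hf
  refine ⟨by rw [← hx, Pic0.correspondence_mk], normAlong_ne_zero' ψ hfin hφf, fun v => ?_⟩
  have hD' : ∀ v : Place K F, ((p : ℤ) • (D : Divisor K F)) v = v.ord f := fun v => by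
    rw [Finsupp.smul_apply, smul_eq_mul]
    exact hD v
  have h1 := correspondence_eq_ord_norm φ ψ hφ hψ hfin hN hf hD' v
  rw [← h1, Pic0.coe_degZeroCorrespondence, map_zsmul, Finsupp.smul_apply, smul_eq_mul]

end NormAlong

variable {K₀ F₀ : Type*} [Field K₀] [Field F₀] [Algebra K₀ F₀]
variable {V : ValuationSubring F₀} {κ k : Type*} [Field κ] [Field k] [Algebra κ k]
  {res : ↥V →+* k} {ι : Type*} {vE : ι → Place κ k} {p : ℕ} {C : Subfield F₀}

variable {F₀' : Type*} [Field F₀'] [Algebra K₀ F₀'] [HasPrincipalDivisors K₀ F₀']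
  (α₀ β₀ : F₀ →ₐ[K₀] F₀') (hα₀ : α₀.toRingHom.IsIntegral) (hβ₀ : β₀.toRingHom.IsIntegral)
  (hFI₀ : FundamentalIdentityAlong K₀ β₀ hβ₀) (hfin₀ : FiniteAlong K₀ α₀)
  (hN₀ : NormFormulaAlong K₀ α₀ hfin₀)

variable {k' : Type*} [Field k'] [Algebra κ k'] [HasPrincipalDivisors κ k']
  (αb βb : k →ₐ[κ] k') (hαb : αb.toRingHom.IsIntegral) (hβb : βb.toRingHom.IsIntegral)

/-- **(R2), generic form: `ρ (T x) = B (ρ x)`.** -/
theorem rho_correspondence (H : RhoInputs (K₀ := K₀) V res vE C)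
    (hfin : FiniteAlong κ αb) (hN : NormFormulaAlong κ αb hfin)
    (hb : ∀ u : (↥V)ˣ, lam V res vE p C (normAlong α₀ (β₀ ((u : ↥V) : F₀))) =
      resVec vE p (normAlong αb (βb (res (u : ↥V)))))
    (hC : ∀ c ∈ C, c ≠ 0 → lam V res vE p C (normAlong α₀ (β₀ c)) = 0)
    (hf : ∀ e, ∀ w ∈ Place.fiberAlong αb hαb (vE e), w.inertiaDegAlong αb hαb = 1)
    (hd : ∀ e, ∀ w ∈ Place.fiberAlong αb hαb (vE e), ∃ e', vE e' = w.restrictAlong βb hβb)
    (hram : ∀ e, ∀ w ∈ Place.fiberAlong αb hαb (vE e), w.ramificationIndexAlong βb = 1)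
    (x : Pic0.torsion K₀ F₀ p) :
    rho V res vE p C H
        ⟨Pic0.correspondence β₀ α₀ hβ₀ hα₀ hFI₀ hfin₀ hN₀ (x : Pic0 K₀ F₀),
          map_mem_torsion _ x.2⟩ =
      brandt vE p βb αb hβb hαb (rho V res vE p C H x) := by
  refine rho_map_of_rel H (Pic0.correspondence β₀ α₀ hβ₀ hα₀ hFI₀ hfin₀ hN₀)
    (brandt vE p βb αb hβb hαb) ?_ x _
  intro y D f hD
  refine ⟨_, _, isPData_correspondence β₀ α₀ hβ₀ hα₀ hFI₀ hfin₀ hN₀ hD, ?_⟩
  obtain ⟨c, u, hc, hc0, hfu⟩ := exists_rep H hD.2.1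
  have hu0 : ((u : ↥V) : F₀) ≠ 0 := coe_units_ne_zero' u
  have hβc : β₀ c ≠ 0 := by
    rw [Ne, map_eq_zero_iff β₀ β₀.toRingHom.injective]
    exact hc0
  have hβu : β₀ ((u : ↥V) : F₀) ≠ 0 := by
    rw [Ne, map_eq_zero_iff β₀ β₀.toRingHom.injective]
    exact hu0
  rw [hfu, map_mul, normAlong_mul,
    lam_mul H (normAlong_ne_zero' α₀ hfin₀ hβc) (normAlong_ne_zero' α₀ hfin₀ hβu),
    hC c hc hc0, zero_add, hb u, lam_eq H hc hc0 rfl]
  exact resVec_normAlong vE p βb αb hβb hαb hfin hN (res_units_ne_zero u) hf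
    (fun e w hw _ => hram e w hw) (fun e w hw hne => absurd (hd e w hw) hne)

/-- **(R2), generic form: `B 𝟙 = n 𝟙`**, `n = [k' : ᾱ k]`. -/
theorem brandt_one_of_unram (hFI : FundamentalIdentityAlong κ αb hαb)
    (hdeg' : ∀ w : Place κ k', w.deg = 1) (hdeg : ∀ e, (vE e).deg = 1)
    (hd : ∀ e, ∀ w ∈ Place.fiberAlong αb hαb (vE e), ∃ e', vE e' = w.restrictAlong βb hβb)
    (hunr : ∀ e, ∀ w ∈ Place.fiberAlong αb hαb (vE e), w.ramificationIndexAlong αb = 1) :
    brandt vE p βb αb hβb hαb (fun _ => 1) =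
      (finrankAlong κ αb : ℤ) • (fun _ => (1 : ZMod p)) :=
  brandt_one vE p βb αb hβb hαb (finrankAlong κ αb) hd fun e =>
    card_fiberAlong αb hαb hFI hdeg' (vE e) (hdeg e) (hunr e)

/-! ### Weighted form: no unramifiedness needed (design v2) -/

/-- **(R2), generic weighted form: `ρ (T x) = B_W (ρ x)`.**  Only (a), (b), (c), (d) are used. -/
theorem rho_correspondence_W (H : RhoInputs (K₀ := K₀) V res vE C)
    (hfin : FiniteAlong κ αb) (hN : NormFormulaAlong κ αb hfin)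
    (hb : ∀ u : (↥V)ˣ, lam V res vE p C (normAlong α₀ (β₀ ((u : ↥V) : F₀))) =
      resVec vE p (normAlong αb (βb (res (u : ↥V)))))
    (hC : ∀ c ∈ C, c ≠ 0 → lam V res vE p C (normAlong α₀ (β₀ c)) = 0)
    (hd : ∀ e, ∀ w ∈ Place.fiberAlong αb hαb (vE e), ∃ e', vE e' = w.restrictAlong βb hβb)
    (x : Pic0.torsion K₀ F₀ p) :
    rho V res vE p C H
        ⟨Pic0.correspondence β₀ α₀ hβ₀ hα₀ hFI₀ hfin₀ hN₀ (x : Pic0 K₀ F₀),
          map_mem_torsion _ x.2⟩ =
      brandtW vE p βb αb hβb hαb (rho V res vE p C H x) := by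
  refine rho_map_of_rel H (Pic0.correspondence β₀ α₀ hβ₀ hα₀ hFI₀ hfin₀ hN₀)
    (brandtW vE p βb αb hβb hαb) ?_ x _
  intro y D f hD
  refine ⟨_, _, isPData_correspondence β₀ α₀ hβ₀ hα₀ hFI₀ hfin₀ hN₀ hD, ?_⟩
  obtain ⟨c, u, hc, hc0, hfu⟩ := exists_rep H hD.2.1
  have hu0 : ((u : ↥V) : F₀) ≠ 0 := coe_units_ne_zero' u
  have hβc : β₀ c ≠ 0 := by
    rw [Ne, map_eq_zero_iff β₀ β₀.toRingHom.injective]
    exact hc0
  have hβu : β₀ ((u : ↥V) : F₀) ≠ 0 := by
    rw [Ne, map_eq_zero_iff β₀ β₀.toRingHom.injective]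
    exact hu0
  rw [hfu, map_mul, normAlong_mul,
    lam_mul H (normAlong_ne_zero' α₀ hfin₀ hβc) (normAlong_ne_zero' α₀ hfin₀ hβu),
    hC c hc hc0, zero_add, hb u, lam_eq H hc hc0 rfl]
  exact resVec_normAlong_W vE p βb αb hβb hαb hfin hN (res_units_ne_zero u)
    (fun e w hw hne => absurd (hd e w hw) hne)

/-- **(R2), generic weighted form: `B_W 𝟙 = n 𝟙`**, `n = [k' : ᾱ k]`, from ONE auxiliary function
`D ∈ k` (see `Weighted.node_of_aux`). -/
theorem brandtW_one_of_aux (hFI : FundamentalIdentityAlong κ αb hαb)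
    (hdeg' : ∀ w : Place κ k', w.deg = 1) (hdeg : ∀ e, (vE e).deg = 1)
    (Reg : Place κ k → Prop) (D : k) (c : ℤ) (hc : c ≠ 0)
    (hDE : ∀ e, (vE e).ord D = c)
    (hDoff : ∀ v : Place κ k, Reg v → (¬ ∃ e, vE e = v) → v.ord D = 0)
    (hQ : ∀ e, ∀ w ∈ Place.fiberAlong αb hαb (vE e), w.ord (βb D) = w.ord (αb D))
    (hReg : ∀ e, ∀ w ∈ Place.fiberAlong αb hαb (vE e), Reg (w.restrictAlong βb hβb)) :
    brandtW vE p βb αb hβb hαb (fun _ => 1) =
      (finrankAlong κ αb : ℤ) • (fun _ => (1 : ZMod p)) :=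
  brandtW_one vE p βb αb hβb hαb hFI hdeg' hdeg
    (node_of_aux vE βb αb hβb hαb Reg D c hc hDE hDoff hQ hReg)

end Fermat.Agent.T1B.Brandt36
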