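/-
Programme T1B (row 38 / S44), cell R2/BRANDT (owner helper36): `ρ (T x) = B (ρ x)`, `B 𝟙 = n 𝟙`,
GENERIC WEIGHTED FORM WITHOUT `HasPrincipalDivisors` IN CHARACTERISTIC `p`.

Same statements as `Main.rho_correspondence_W` / `Main.brandtW_one_of_aux`, with the Brandt operator
`brandtS` of `Fin.lean` (set fibres, explicit finiteness `hfib`), the norm formula along `ᾱ` in the
finsum form `hord` (= `Hecke87.NormAlongSep.ord_normAlong_fiber` / `CharPX0.ord_normAlong_alphaC`)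
and the fundamental identity in the form `hsum`
(= `Hecke87.CharPX0.sum_ramificationIndexAlong_alphaC`).  In characteristic `0` (level `N = M' p`,
function field `F₀'` of `X₀(N ℓ)` over `K₀ = ℚ̄`) the Prelude instance `HasPrincipalDivisors K₀ F₀'`
is still used: it is needed to state `Pic0.correspondence`.
-/
import Mathlib
import Fermat.Agent.T1B.Brandt36.Main
import Fermat.Agent.T1B.Brandt36.Fin

set_option autoImplicit false
set_option linter.unusedSectionVars false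
set_option linter.style.haveILetI false

noncomputable section

namespace Fermat.Agent.T1B.Brandt36

open AlgebraicCurve Fermat.Agent.T1B.Hecke3 Fermat.Agent.T1B.Hol80
  Fermat.Agent.ES.HECKE.PointFormula28

variable {K₀ F₀ : Type*} [Field K₀] [Field F₀] [Algebra K₀ F₀]
variable {V : ValuationSubring F₀} {κ k : Type*} [Field κ] [Field k] [Algebra κ k]
  {res : ↥V →+* k} {ι : Type*} {vE : ι → Place κ k} {p : ℕ} {C : Subfield F₀}

variable {F₀' : Type*} [Field F₀'] [Algebra K₀ F₀'] [HasPrincipalDivisors K₀ F₀']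
  (α₀ β₀ : F₀ →ₐ[K₀] F₀') (hα₀ : α₀.toRingHom.IsIntegral) (hβ₀ : β₀.toRingHom.IsIntegral)
  (hFI₀ : FundamentalIdentityAlong K₀ β₀ hβ₀) (hfin₀ : FiniteAlong K₀ α₀)
  (hN₀ : NormFormulaAlong K₀ α₀ hfin₀)

variable {k' : Type*} [Field k'] [Algebra κ k']
  (αb βb : k →ₐ[κ] k') (hαb : αb.toRingHom.IsIntegral) (hβb : βb.toRingHom.IsIntegral)
  (hfib : ∀ e, {w : Place κ k' | w.restrictAlong αb hαb = vE e}.Finite)

/-- **(R2), generic weighted form, no `HasPrincipalDivisors` in characteristic `p`: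
`ρ (T x) = B_S (ρ x)`.**  Only (a), (b), (c), (d) are used. -/
theorem rho_correspondence_S (H : RhoInputs (K₀ := K₀) V res vE C)
    (hord : ∀ e, ∀ f : k', f ≠ 0 → (vE e).ord (normAlong αb f) =
      ∑ᶠ w : {w : Place κ k' // w.restrictAlong αb hαb = vE e}, w.1.ord f)
    (hb : ∀ u : (↥V)ˣ, lam V res vE p C (normAlong α₀ (β₀ ((u : ↥V) : F₀))) =
      resVec vE p (normAlong αb (βb (res (u : ↥V)))))
    (hC : ∀ c ∈ C, c ≠ 0 → lam V res vE p C (normAlong α₀ (β₀ c)) = 0)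
    (hd : ∀ e, ∀ w : Place κ k', w.restrictAlong αb hαb = vE e →
      ∃ e', vE e' = w.restrictAlong βb hβb)
    (x : Pic0.torsion K₀ F₀ p) :
    rho V res vE p C H
        ⟨Pic0.correspondence β₀ α₀ hβ₀ hα₀ hFI₀ hfin₀ hN₀ (x : Pic0 K₀ F₀),
          map_mem_torsion _ x.2⟩ =
      brandtS vE p βb αb hβb hαb hfib (rho V res vE p C H x) := by
  refine rho_map_of_rel H (Pic0.correspondence β₀ α₀ hβ₀ hα₀ hFI₀ hfin₀ hN₀)
    (brandtS vE p βb αb hβb hαb hfib) ?_ x _
  intro y D f hD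
  refine ⟨_, _, isPData_correspondence β₀ α₀ hβ₀ hα₀ hFI₀ hfin₀ hN₀ hD, ?_⟩
  obtain ⟨c, u, hc, hc0, hfu⟩ := exists_rep H hD.2.1
  have hu0 : ((u : ↥V) : F₀) ≠ 0 := coe_units_ne_zero' u
  have hβc : β₀ c ≠ 0 := by
    rw [Ne, map_eq_zero_iff β₀ β₀.toRingHom.injective]
    exact hc0
  have hβu : β₀ ((u : ↥V) : F₀) ≠ 0 := by
    rw [Ne, map_eq_zero_iff β₀ β₀.toRingHom.injective]
    exact hu0
  rw [hfu, map_mul, normAlong_mul,
    lam_mul H (normAlong_ne_zero' α₀ hfin₀ hβc) (normAlong_ne_zero' α₀ hfin₀ hβu),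
    hC c hc hc0, zero_add, hb u, lam_eq H hc hc0 rfl]
  exact resVec_normAlong_S vE p βb αb hβb hαb hfib hord (res_units_ne_zero u)
    (fun e w hw hne => absurd (hd e w hw) hne)

/-- **(R2), generic weighted form, no `HasPrincipalDivisors`: `B_S 𝟙 = n 𝟙`**, `n = [k' : ᾱ k]`,
from ONE auxiliary function `D ∈ k` (see `Fin.node_of_aux_S`). -/
theorem brandtS_one_of_aux (n : ℤ)
    (hsum : ∀ e, ∑ᶠ w ∈ {w : Place κ k' | w.restrictAlong αb hαb = vE e},
      (w.ramificationIndexAlong αb : ℤ) = n)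
    (Reg : Place κ k → Prop) (D : k) (c : ℤ) (hc : c ≠ 0)
    (hDE : ∀ e, (vE e).ord D = c)
    (hDoff : ∀ v : Place κ k, Reg v → (¬ ∃ e, vE e = v) → v.ord D = 0)
    (hQ : ∀ e, ∀ w : Place κ k', w.restrictAlong αb hαb = vE e → w.ord (βb D) = w.ord (αb D))
    (hReg : ∀ e, ∀ w : Place κ k', w.restrictAlong αb hαb = vE e →
      Reg (w.restrictAlong βb hβb)) :
    brandtS vE p βb αb hβb hαb hfib (fun _ => 1) = n • (fun _ => (1 : ZMod p)) :=
  brandtS_one vE p βb αb hβb hαb hfib n hsum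
    (node_of_aux_S vE βb αb hβb hαb Reg D c hc hDE hDoff hQ hReg)

/-- (d) from the auxiliary function: every place over a node maps to a node under `β̄`. -/
theorem hd_of_aux (Reg : Place κ k → Prop) (D : k) (c : ℤ) (hc : c ≠ 0)
    (hDE : ∀ e, (vE e).ord D = c)
    (hDoff : ∀ v : Place κ k, Reg v → (¬ ∃ e, vE e = v) → v.ord D = 0)
    (hQ : ∀ e, ∀ w : Place κ k', w.restrictAlong αb hαb = vE e → w.ord (βb D) = w.ord (αb D))
    (hReg : ∀ e, ∀ w : Place κ k', w.restrictAlong αb hαb = vE e →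
      Reg (w.restrictAlong βb hβb))
    (e : ι) (w : Place κ k') (hw : w.restrictAlong αb hαb = vE e) :
    ∃ e', vE e' = w.restrictAlong βb hβb :=
  (node_of_aux_S vE βb αb hβb hαb Reg D c hc hDE hDoff hQ hReg e w hw).1

end Fermat.Agent.T1B.Brandt36
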