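/-
Programme T1B (row 38 / S44), cell R2/BRANDT (owner helper36), work package W3 (ii):
THE AUXILIARY FUNCTION HAS ORDER `0` AT THE NON-NODES OF THE CHART (abstract `π`-saturation lemma).

Setting: a field `F` (the function field of `X₀(M' p)`), two valuation subrings `O₁ O₂` (the two
components of the special fibre), a chart `B ⊆ O₁ ∩ O₂` which is `π`-saturated in `O₁ ∩ O₂`
(`sat` = `sat0`/`sat1` of the nodal model), the reduction `res₁ : O₁ →+* k` on the first component,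
and a place `v` of `k` which has a centre on the chart (`hcen : res₁ B ⊆ O_v`).
The test element `h ∈ B` is a unit of `O₁` and has `π ^ n / h ∈ B` (`h h' = π ^ n`).

If the centre of `v` does NOT lie on the second branch, i.e. some `b ∈ B ∩ π O₂` has `res₁ b` a unit
at `v`, then `ord_v (res₁ h) = 0`:
  `c' := bⁿ / h = (b / π)ⁿ h' ∈ O₁ ∩ O₂` and `πⁿ c' = bⁿ h' ∈ B`, so `c' ∈ B` by saturation, and
  `res₁ h · res₁ c' = (res₁ b)ⁿ` is a unit at `v` with both factors in `O_v`.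
-/
import Mathlib
import Fermat.Prelude.Def_AlgebraicCurve_Correspondence
import Fermat.Agent.X0.FFDict

set_option autoImplicit false
set_option linter.unusedSectionVars false

noncomputable section

namespace Fermat.Agent.T1B.Brandt36

open AlgebraicCurve

section Sat

variable {F : Type*} [Field F] (O₁ O₂ : ValuationSubring F) (B : Subring F)

/-- iterated `π`-saturation. -/
theorem mem_of_pow_mul_mem {π : F} (hπ₁ : π ∈ O₁) (hπ₂ : π ∈ O₂)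
    (sat : ∀ c : F, c ∈ O₁ → c ∈ O₂ → π * c ∈ B → c ∈ B) :
    ∀ (j : ℕ) (c : F), c ∈ O₁ → c ∈ O₂ → π ^ j * c ∈ B → c ∈ B := by
  intro j
  induction j with
  | zero =>
    intro c _ _ h
    rwa [pow_zero, one_mul] at h
  | succ j ih =>
    intro c h₁ h₂ h
    have h' : π * (π ^ j * c) ∈ B := by
      have : π * (π ^ j * c) = π ^ (j + 1) * c := by ring
      rwa [this]
    exact ih c h₁ h₂ (sat _ (O₁.mul_mem _ _ (O₁.pow_mem hπ₁ j) h₁)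
      (O₂.mul_mem _ _ (O₂.pow_mem hπ₂ j) h₂) h')

/-- `bⁿ / h ∈ B` for `b ∈ B ∩ π O₂`, `h h' = πⁿ`, `h⁻¹ ∈ O₁`. -/
theorem pow_div_mem_of_sat (hB₁ : ∀ b ∈ B, b ∈ O₁) (hB₂ : ∀ b ∈ B, b ∈ O₂) {π : F} (hπ : π ∈ B)
    (hπ0 : π ≠ 0) (sat : ∀ c : F, c ∈ O₁ → c ∈ O₂ → π * c ∈ B → c ∈ B)
    {h h' : F} (hh' : h' ∈ B) {n : ℕ} (hhh : h * h' = π ^ n) (hinv : h⁻¹ ∈ O₁)
    {b : F} (hb : b ∈ B) (hb₂ : b * π⁻¹ ∈ O₂) : b ^ n * h⁻¹ ∈ B := by
  have hh0 : h ≠ 0 := by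
    intro h0
    rw [h0, zero_mul] at hhh
    exact pow_ne_zero n hπ0 hhh.symm
  have hh'0 : h' ≠ 0 := by
    intro h0
    rw [h0, mul_zero] at hhh
    exact pow_ne_zero n hπ0 hhh.symm
  have hinv' : h⁻¹ = h' * (π ^ n)⁻¹ := by
    rw [← hhh]
    field_simp
  have hc₁ : b ^ n * h⁻¹ ∈ O₁ := O₁.mul_mem _ _ (O₁.pow_mem (hB₁ b hb) n) hinv
  have hc₂ : b ^ n * h⁻¹ ∈ O₂ := by
    have e : b ^ n * h⁻¹ = (b * π⁻¹) ^ n * h' := by
      rw [hinv', mul_pow, inv_pow]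
      ring
    rw [e]
    exact O₂.mul_mem _ _ (O₂.pow_mem hb₂ n) (hB₂ h' hh')
  refine mem_of_pow_mul_mem O₁ O₂ B (hB₁ π hπ) (hB₂ π hπ) sat n _ hc₁ hc₂ ?_
  have e : π ^ n * (b ^ n * h⁻¹) = b ^ n * h' := by
    rw [← hhh]
    field_simp
  rw [e]
  exact B.mul_mem (B.pow_mem hb n) hh'

end Sat

variable {F : Type*} [Field F] (O₁ O₂ : ValuationSubring F) (B : Subring F)
variable {κ k : Type*} [Field κ] [Field k] [Algebra κ k]

/-- **W3 (ii), abstract form**: the test element has order `0` at every place of the chart whose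
centre is not on the second branch. -/
theorem ord_res_eq_zero_of_off_branch (hB₁ : ∀ b ∈ B, b ∈ O₁) (hB₂ : ∀ b ∈ B, b ∈ O₂) {π : F}
    (hπ : π ∈ B) (hπ0 : π ≠ 0) (sat : ∀ c : F, c ∈ O₁ → c ∈ O₂ → π * c ∈ B → c ∈ B)
    (res₁ : ↥O₁ →+* k) (v : Place κ k)
    (hcen : ∀ b (hb : b ∈ B), res₁ ⟨b, hB₁ b hb⟩ ∈ v.toValuationSubring)
    {h h' : F} (hh : h ∈ B) (hh' : h' ∈ B) {n : ℕ} (hhh : h * h' = π ^ n) (hinv : h⁻¹ ∈ O₁)
    {b : F} (hb : b ∈ B) (hb₂ : b * π⁻¹ ∈ O₂)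
    (hbv0 : res₁ ⟨b, hB₁ b hb⟩ ≠ 0) (hbv : v.ord (res₁ ⟨b, hB₁ b hb⟩) = 0) :
    v.ord (res₁ ⟨h, hB₁ h hh⟩) = 0 := by
  have hc : b ^ n * h⁻¹ ∈ B :=
    pow_div_mem_of_sat O₁ O₂ B hB₁ hB₂ hπ hπ0 sat hh' hhh hinv hb hb₂
  have hh0 : h ≠ 0 := by
    intro h0
    rw [h0, zero_mul] at hhh
    exact pow_ne_zero n hπ0 hhh.symm
  have hprod : (⟨h, hB₁ h hh⟩ : ↥O₁) * ⟨b ^ n * h⁻¹, hB₁ _ hc⟩ = ⟨b, hB₁ b hb⟩ ^ n := by
    apply Subtype.ext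
    push_cast
    field_simp
  have hres : res₁ ⟨h, hB₁ h hh⟩ * res₁ ⟨b ^ n * h⁻¹, hB₁ _ hc⟩ =
      res₁ ⟨b, hB₁ b hb⟩ ^ n := by
    rw [← map_mul, hprod, map_pow]
  have hpow0 : res₁ ⟨b, hB₁ b hb⟩ ^ n ≠ 0 := pow_ne_zero n hbv0
  have h1 : res₁ ⟨h, hB₁ h hh⟩ ≠ 0 := by
    intro h0
    rw [h0, zero_mul] at hres
    exact hpow0 hres.symm
  have h2 : res₁ ⟨b ^ n * h⁻¹, hB₁ _ hc⟩ ≠ 0 := by
    intro h0
    rw [h0, mul_zero] at hres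
    exact hpow0 hres.symm
  have hord := v.ord_mul h1 h2
  rw [hres] at hord
  have hpow : v.ord (res₁ ⟨b, hB₁ b hb⟩ ^ n) = 0 := by
    have := v.ord_zpow (res₁ ⟨b, hB₁ b hb⟩) (n : ℤ)
    rw [zpow_natCast] at this
    rw [this, hbv, mul_zero]
  rw [hpow] at hord
  have hn1 := Fermat.Agent.X0.FF.ord_nonneg_of_mem v (hcen h hh)
  have hn2 := Fermat.Agent.X0.FF.ord_nonneg_of_mem v (hcen _ hc)
  omega

end Fermat.Agent.T1B.Brandt36
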