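/-
Programme T1B (row 38 / S44), cell R2/BRANDT (owner helper36), work package W5: INSTANTIATION AT THE HUB.

`A` a valuation subring of `ℚbar` over `p`, `κ = Kap A`, `N = M' p` with `4 ∣ M'`, `p ∤ M'`:
* `V = Brandt14.gaussO A N` the Gauss valuation ring of `FF N` (expansion at `∞`),
  `hubRes : V →+* k₁ = modularFunctionFieldFullC κ M'` (RESFIELD-ID, helper16),
  `hubC` = the constants `ℚbar ⊂ FF N`;
* `rhoInputs_hub` : `RhoInputs V hubRes vE hubC` for ANY family of places `vE : ι → Place κ k₁`;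
* `rhoHub vE : J₀(N)(ℚbar)[p] →+ (ι → ZMod p)` the residue vector;
* `hb_hub` (reduction commutes with the norm, helper14), `hC_hub` (norms of constants, helper27);
* `brandtHub vE ℓ` the ramification-weighted Brandt operator for the degeneracy maps
  `ᾱ β̄ = Hecke87.CharPX0.alphaC/betaC κ M' ℓ` in characteristic `p`;
* `rhoHub_heckeOperatorBar` : **`ρ (T_ℓ x) = B_ℓ (ρ x)`** for the Prelude's `heckeOperatorBar N ℓ`,
  `ℓ ∤ N`, and `brandtHub_one` : **`B_ℓ 𝟙 = (ℓ + 1) 𝟙`**, both from ONE auxiliary function package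
  `(Reg, D, c ≠ 0, hDE, hDoff, hQ, hReg)` (work packages W3 and W4);
* `exists_brandt_hub` : the fields `B`, `B_one`, `ρ_T` of `Local66.LocalGeom`.
-/
import Mathlib
import Fermat.Agent.T1B.Brandt36.MainFin
import Fermat.Agent.T1B.Brandt14.NormRedFullC
import Fermat.Agent.T1B.Brandt27.NormConst
import Fermat.Agent.T1B.Hecke87.CharPX0
import Fermat.Agent.T1B.Hecke3.DeltaX0
import Fermat.Agent.T1B.Hecke87.InputsX0
import Fermat.Agent.T1B.Hol80.DeltaHol
import Fermat.Agent.ES.KRON.KronInst10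

set_option autoImplicit false
set_option linter.unusedSectionVars false
set_option linter.style.haveILetI false

noncomputable section

namespace Fermat.Agent.T1B.Brandt36

open HahnSeries ModularCurve AlgebraicCurve IntermediateField
open Fermat.Agent.X0 Fermat.Agent.T1B.Hecke3 Fermat.Agent.T1B.Hecke7 Fermat.Agent.T1B.DivNorm27
open Fermat.Agent.T1B.Hol80 Fermat.Agent.T1B.Brandt14
open Fermat.Agent.ES.HECKE.PointFormula28 Fermat.Agent.ES.HECKE.InputsMain19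
open Fermat.Agent.T1B.Hecke87.CharPX0

attribute [local instance 5000] Fermat.Agent.T1B.Brandt14.algKapFullC

variable (A : ValuationSubring Kbar) {p : ℕ} [hp : Fact p.Prime] [NeZero p]
  (hA : A.LiesOverPrime p)
variable (M' : ℕ) [NeZero M'] (hpM' : ¬ p ∣ M') (hM' : 4 ∣ M')

/-- the residue map of the hub: `O₁ = gaussO A (M' p) →+* k₁ = F_{M'}` over `κ`. -/
def hubRes : ↥(gaussO A (M' * p)) →+* ↥(modularFunctionFieldFullC (Kap A) M') :=
  resO A (M' * p) M' (hRF1_four A hA M' hpM' hM')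

variable (p) in
/-- the constants of the hub function field. -/
def hubC : Subfield (FF (M' * p)) := (algebraMap Kbar (FF (M' * p))).fieldRange

theorem coe_hubRes (c : ↥(gaussO A (M' * p))) :
    ((hubRes A hA M' hpM' hM' c : ↥(modularFunctionFieldFullC (Kap A) M')) :
      LaurentSeries (Kap A)) = gaussRes A (iotaHom (M' * p)) (toSub A (M' * p) c) := rfl

/-- a non-unit of the Gauss valuation ring has zero residue. -/
theorem hubRes_eq_zero_of_not_isUnit (c : ↥(gaussO A (M' * p))) (hc : ¬ IsUnit c) :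
    hubRes A hA M' hpM' hM' c = 0 :=
  Subtype.ext (gaussRes_eq_zero_of_not_isUnit A (M' * p) c hc)

/-- the residue of a constant unit is a constant. -/
theorem hubRes_const (u : ↥(gaussO A (M' * p)))
    (hu : ((u : ↥(gaussO A (M' * p))) : FF (M' * p)) ∈ hubC p M') :
    ∃ r : Kap A, hubRes A hA M' hpM' hM' u =
      algebraMap (Kap A) ↥(modularFunctionFieldFullC (Kap A) M') r := by
  obtain ⟨c, hc⟩ := hu
  have hι : ∀ c : Kbar, iotaHom (M' * p) (algebraMap Kbar (FF (M' * p)) c) = HahnSeries.C c :=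
    Fermat.Agent.T1B.Hecke87.iota_const (M' * p)
  have hcA : c ∈ A := by
    by_contra hcA
    have hcinv : c⁻¹ ∈ A := (A.mem_or_inv_mem c).resolve_left hcA
    have hc0 : c ≠ 0 := fun h0 => hcA (h0 ▸ A.zero_mem)
    set d : ↥A := ⟨c⁻¹, hcinv⟩ with hd
    have hdnu : ¬ IsUnit d := by
      intro hu'
      obtain ⟨w, hw⟩ := hu'.exists_right_inv
      have hwK : c⁻¹ * (w : Kbar) = 1 := congrArg Subtype.val hw
      have : (w : Kbar) = c := by
        have := eq_inv_of_mul_eq_one_right hwK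
        rwa [inv_inv] at this
      exact hcA (this ▸ w.2)
    have hres0 : IsLocalRing.residue ↥A d = 0 := by
      rw [IsLocalRing.residue_eq_zero_iff]
      exact hdnu
    have hmul : toSub A (M' * p) u *
        ⟨algebraMap Kbar (FF (M' * p)) ((d : ↥A) : Kbar),
          const_mem_gaussSub (algebraMap Kbar (FF (M' * p))) hι d⟩ = 1 := by
      apply Subtype.ext
      show ((u : ↥(gaussO A (M' * p))) : FF (M' * p)) * algebraMap Kbar (FF (M' * p)) c⁻¹ = 1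
      rw [← hc, ← map_mul, mul_inv_cancel₀ hc0, map_one]
    have h1 := congrArg (gaussRes A (iotaHom (M' * p))) hmul
    rw [map_mul, gaussRes_const (algebraMap Kbar (FF (M' * p))) hι, hres0, map_zero, mul_zero,
      map_one] at h1
    exact zero_ne_one h1
  refine ⟨IsLocalRing.residue ↥A ⟨c, hcA⟩, Subtype.ext ?_⟩
  have hsub : toSub A (M' * p) u =
      ⟨algebraMap Kbar (FF (M' * p)) ((⟨c, hcA⟩ : ↥A) : Kbar),
        const_mem_gaussSub (algebraMap Kbar (FF (M' * p))) hι ⟨c, hcA⟩⟩ :=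
    Subtype.ext hc.symm
  rw [coe_hubRes, hsub, gaussRes_const (algebraMap Kbar (FF (M' * p))) hι]
  show _ = algebraMap (Kap A) (LaurentSeries (Kap A)) _
  rw [HahnSeries.C_apply, algebraMap_laurentSeries_eq_single]

variable {ι : Type*} (vE : ι → Place (Kap A) ↥(modularFunctionFieldFullC (Kap A) M'))

/-- **The inputs of `rho` hold at the hub**, for any family of places `vE`. -/
theorem rhoInputs_hub :
    RhoInputs (K₀ := Kbar) (gaussO A (M' * p)) (hubRes A hA M' hpM' hM') vE (hubC p M') := by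
  refine ⟨?_, fun c => ⟨c, rfl⟩,
    fun f hf h => Fermat.Agent.T1B.Hecke87.const_of_ord_eq_zero (M' * p) f hf h, ?_⟩
  · exact hasConstScaling_gaussVal (algebraMap Kbar (FF (M' * p)))
      (Fermat.Agent.T1B.Hecke87.iota_const (M' * p))
  · intro u hu e
    obtain ⟨r, hr⟩ := hubRes_const A hA M' hpM' hM' (u : ↥(gaussO A (M' * p))) hu
    rw [hr]
    exact Fermat.Agent.X0.FF.ord_algebraMap (vE e) r

/-- **The residue vector at the hub**, `J₀(M' p)(ℚbar)[p] →+ (ι → ZMod p)`. -/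
def rhoHub : Pic0.torsion Kbar (FF (M' * p)) p →+ (ι → ZMod p) :=
  rho (gaussO A (M' * p)) (hubRes A hA M' hpM' hM') vE p (hubC p M')
    (rhoInputs_hub A hA M' hpM' hM' vE)

section Ell

variable (ℓ : ℕ) [NeZero ℓ] (hℓ : ℓ.Prime) (hℓN : ¬ ℓ ∣ M' * p)

include hℓ hℓN in
theorem not_dvd_mul_ell (hpM' : ¬ p ∣ M') : ¬ p ∣ M' * ℓ := by
  intro h
  rcases (Nat.Prime.dvd_mul hp.out).1 h with h | h
  · exact hpM' h
  · exact hℓN (((Nat.prime_dvd_prime_iff_eq hp.out hℓ).1 h) ▸ dvd_mul_left p M')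

include hℓN in
theorem ell_not_dvd : ¬ ℓ ∣ M' := fun h => hℓN (h.mul_right p)

include hℓ hℓN in
/-- **(b) at the hub**: reduction commutes with the norm, in the `lam`/`resVec` form. -/
theorem hb_hub (u : (↥(gaussO A (M' * p)))ˣ) :
    lam (gaussO A (M' * p)) (hubRes A hA M' hpM' hM') vE p (hubC p M')
        (normAlong (heckeAlphaBar Kbar (M' * p) ℓ)
          (heckeBetaBar Kbar (M' * p) ℓ ((u : ↥(gaussO A (M' * p))) : FF (M' * p)))) =
      resVec vE p (normAlong (alphaC (Kap A) M' ℓ)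
        (betaC (Kap A) M' ℓ (hubRes A hA M' hpM' hM' (u : ↥(gaussO A (M' * p)))))) := by
  haveI : CharP (Kap A) p := Fermat.Agent.ES.KRON.KronInst10.charP_residueField A hp.out hA
  haveI : IsAlgClosed (Kap A) := Fermat.Agent.ES.KRON.KronInst10.isAlgClosed_residueField A
  have hpℓ := not_dvd_mul_ell M' ℓ hℓ hℓN hpM'
  obtain ⟨h, hres⟩ := res₁_normAlong_alpha_beta A hA M' ℓ hpM' hM' hℓ hℓN
    (u : ↥(gaussO A (M' * p)))
  have hres' : hubRes A hA M' hpM' hM' ⟨_, h⟩ =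
      normAlong (alphaC (Kap A) M' ℓ)
        (betaC (Kap A) M' ℓ (hubRes A hA M' hpM' hM' (u : ↥(gaussO A (M' * p))))) := hres
  -- the residue is nonzero, so `N_α (β u)` is a unit of `V`
  have hu0 : hubRes A hA M' hpM' hM' (u : ↥(gaussO A (M' * p))) ≠ 0 := res_units_ne_zero u
  have hβ0 : betaC (Kap A) M' ℓ (hubRes A hA M' hpM' hM' (u : ↥(gaussO A (M' * p)))) ≠ 0 :=
    fun h0 => hu0 ((map_eq_zero_iff (betaC (Kap A) M' ℓ)
      (betaC (Kap A) M' ℓ).toRingHom.injective).1 h0)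
  have hN0 : normAlong (alphaC (Kap A) M' ℓ)
      (betaC (Kap A) M' ℓ (hubRes A hA M' hpM' hM' (u : ↥(gaussO A (M' * p))))) ≠ 0 :=
    normAlong_ne_zero' _ (finiteAlong_alphaC (Kap A) p M' ℓ hpℓ) hβ0
  have hunit : IsUnit (⟨_, h⟩ : ↥(gaussO A (M' * p))) := by
    by_contra hnu
    exact hN0 (hres'.symm.trans (hubRes_eq_zero_of_not_isUnit A hA M' hpM' hM' _ hnu))
  obtain ⟨w, hw⟩ := hunit
  have hf : normAlong (heckeAlphaBar Kbar (M' * p) ℓ)
      (heckeBetaBar Kbar (M' * p) ℓ ((u : ↥(gaussO A (M' * p))) : FF (M' * p))) =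
      1 * ((w : ↥(gaussO A (M' * p))) : FF (M' * p)) := by
    rw [one_mul, hw]
  rw [lam_eq (rhoInputs_hub A hA M' hpM' hM' vE) (one_mem _) one_ne_zero hf, hw, hres']

include hℓ in
/-- **(hC) at the hub**: the norm of a constant has `lam = 0`. -/
theorem hC_hub (c : FF (M' * p)) (hc : c ∈ hubC p M') (hc0 : c ≠ 0) :
    lam (gaussO A (M' * p)) (hubRes A hA M' hpM' hM') vE p (hubC p M')
        (normAlong (heckeAlphaBar Kbar (M' * p) ℓ) (heckeBetaBar Kbar (M' * p) ℓ c)) = 0 := by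
  have hβc : heckeBetaBar Kbar (M' * p) ℓ c ≠ 0 :=
    fun h0 => hc0 ((map_eq_zero_iff (heckeBetaBar Kbar (M' * p) ℓ)
      (heckeBetaBar Kbar (M' * p) ℓ).toRingHom.injective).1 h0)
  exact lam_const (rhoInputs_hub A hA M' hpM' hM' vE)
    (Fermat.Agent.T1B.Brandt27.normAlong_map_mem_fieldRange _ _ hc)
    (normAlong_ne_zero' _ (finiteAlong_alpha_all (M' * p) ℓ hℓ) hβc)

include hA hpM' hℓ hℓN in
/-- `ℓ` is invertible in the residue field. -/
theorem ell_ne_zero_kap : ((ℓ : ℕ) : Kap A) ≠ 0 := by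
  haveI : CharP (Kap A) p := Fermat.Agent.ES.KRON.KronInst10.charP_residueField A hp.out hA
  intro h0
  have hdvd : p ∣ ℓ := (CharP.cast_eq_zero_iff (Kap A) p ℓ).1 h0
  exact hℓN (((Nat.prime_dvd_prime_iff_eq hp.out hℓ).1 hdvd) ▸ dvd_mul_left p M')

include hA hpM' hℓ hℓN in
theorem isIntegral_alphaHub : (alphaC (Kap A) M' ℓ).toRingHom.IsIntegral := by
  haveI : CharP (Kap A) p := Fermat.Agent.ES.KRON.KronInst10.charP_residueField A hp.out hA
  haveI : IsAlgClosed (Kap A) := Fermat.Agent.ES.KRON.KronInst10.isAlgClosed_residueField A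
  exact isIntegral_alphaC (Kap A) p M' ℓ (not_dvd_mul_ell M' ℓ hℓ hℓN hpM')

include hA hpM' hℓ hℓN in
theorem isIntegral_betaHub : (betaC (Kap A) M' ℓ).toRingHom.IsIntegral := by
  haveI : CharP (Kap A) p := Fermat.Agent.ES.KRON.KronInst10.charP_residueField A hp.out hA
  haveI : IsAlgClosed (Kap A) := Fermat.Agent.ES.KRON.KronInst10.isAlgClosed_residueField A
  exact isIntegral_betaC (Kap A) p M' ℓ (not_dvd_mul_ell M' ℓ hℓ hℓN hpM') hℓ
    (ell_ne_zero_kap A hA M' hpM' ℓ hℓ hℓN)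

include hA hpM' hℓ hℓN in
/-- the fibres of `ᾱ` are finite, and `∑_{w ∣ e} e_ᾱ(w) = ℓ + 1`. -/
theorem sum_ramification_alphaHub (hα : (alphaC (Kap A) M' ℓ).toRingHom.IsIntegral)
    (e : Place (Kap A) ↥(modularFunctionFieldFullC (Kap A) M')) :
    {w : Place (Kap A) ↥(modularFunctionFieldFullC (Kap A) (M' * ℓ)) |
      w.restrictAlong (alphaC (Kap A) M' ℓ) hα = e}.Finite ∧
    ∑ᶠ w ∈ {w : Place (Kap A) ↥(modularFunctionFieldFullC (Kap A) (M' * ℓ)) |
      w.restrictAlong (alphaC (Kap A) M' ℓ) hα = e},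
        (w.ramificationIndexAlong (alphaC (Kap A) M' ℓ) : ℤ) = (ℓ : ℤ) + 1 := by
  haveI : CharP (Kap A) p := Fermat.Agent.ES.KRON.KronInst10.charP_residueField A hp.out hA
  haveI : IsAlgClosed (Kap A) := Fermat.Agent.ES.KRON.KronInst10.isAlgClosed_residueField A
  exact sum_ramificationIndexAlong_alphaC (Kap A) p M' ℓ (not_dvd_mul_ell M' ℓ hℓ hℓN hpM') hℓ
    (ell_not_dvd M' ℓ hℓN) e

include hA hpM' hℓ hℓN in
/-- the norm formula along `ᾱ` in the finsum form. -/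
theorem ord_normAlong_alphaHub (hα : (alphaC (Kap A) M' ℓ).toRingHom.IsIntegral)
    (e : Place (Kap A) ↥(modularFunctionFieldFullC (Kap A) M'))
    (g : ↥(modularFunctionFieldFullC (Kap A) (M' * ℓ))) (hg : g ≠ 0) :
    e.ord (normAlong (alphaC (Kap A) M' ℓ) g) =
      ∑ᶠ w : {w : Place (Kap A) ↥(modularFunctionFieldFullC (Kap A) (M' * ℓ)) //
        w.restrictAlong (alphaC (Kap A) M' ℓ) hα = e}, w.1.ord g := by
  haveI : CharP (Kap A) p := Fermat.Agent.ES.KRON.KronInst10.charP_residueField A hp.out hA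
  haveI : IsAlgClosed (Kap A) := Fermat.Agent.ES.KRON.KronInst10.isAlgClosed_residueField A
  exact ord_normAlong_alphaC (Kap A) p M' ℓ (not_dvd_mul_ell M' ℓ hℓ hℓN hpM') e hg

/-- **The Brandt operator at the hub** for the prime `ℓ ∤ M' p`:
`(B_ℓ x)_e = ∑_{w ∣ vE e via ᾱ} e_β̄(w) x_{β̄^* w}`. -/
def brandtHub : (ι → ZMod p) →+ (ι → ZMod p) :=
  brandtS vE p (betaC (Kap A) M' ℓ) (alphaC (Kap A) M' ℓ)
    (isIntegral_betaHub A hA M' hpM' ℓ hℓ hℓN) (isIntegral_alphaHub A hA M' hpM' ℓ hℓ hℓN)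
    (fun e => (sum_ramification_alphaHub A hA M' hpM' ℓ hℓ hℓN
      (isIntegral_alphaHub A hA M' hpM' ℓ hℓ hℓN) (vE e)).1)

/-- **(R2) at the hub, `ρ (T_ℓ x) = B_ℓ (ρ x)`**, for the correspondence `heckePic0Bar` with
arbitrary proofs of its inputs.  `hd` : the places over the nodes map to nodes under `β̄`. -/
theorem rhoHub_heckePic0Bar
    [HasPrincipalDivisors Qb (laurentBaseChange Qb (modularFunctionFieldFull (M' * p * ℓ)))]
    (hα : HeckeAlphaBarIntegral Qb (M' * p) ℓ) (hβ : HeckeBetaBarIntegral Qb (M' * p) ℓ)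
    (hFI : FundamentalIdentityAlong Qb (heckeBetaBar Qb (M' * p) ℓ) hβ)
    (hfin : FiniteAlong Qb (heckeAlphaBar Qb (M' * p) ℓ))
    (hN : NormFormulaAlong Qb (heckeAlphaBar Qb (M' * p) ℓ) hfin)
    (hd : ∀ e, ∀ w : Place (Kap A) ↥(modularFunctionFieldFullC (Kap A) (M' * ℓ)),
      w.restrictAlong (alphaC (Kap A) M' ℓ) (isIntegral_alphaHub A hA M' hpM' ℓ hℓ hℓN) = vE e →
        ∃ e', vE e' = w.restrictAlong (betaC (Kap A) M' ℓ)
          (isIntegral_betaHub A hA M' hpM' ℓ hℓ hℓN))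
    (x : Pic0.torsion Kbar (FF (M' * p)) p) :
    rhoHub A hA M' hpM' hM' vE
        ⟨heckePic0Bar hα hβ hFI hfin hN (x : Pic0 Kbar (FF (M' * p))), map_mem_torsion _ x.2⟩ =
      brandtHub A hA M' hpM' vE ℓ hℓ hℓN (rhoHub A hA M' hpM' hM' vE x) :=
  rho_correspondence_S (heckeAlphaBar Qb (M' * p) ℓ) (heckeBetaBar Qb (M' * p) ℓ) hα hβ hFI hfin hN
    (alphaC (Kap A) M' ℓ) (betaC (Kap A) M' ℓ) (isIntegral_alphaHub A hA M' hpM' ℓ hℓ hℓN)
    (isIntegral_betaHub A hA M' hpM' ℓ hℓ hℓN) _ (rhoInputs_hub A hA M' hpM' hM' vE)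
    (fun e f hf => ord_normAlong_alphaHub A hA M' hpM' ℓ hℓ hℓN _ (vE e) f hf)
    (hb_hub A hA M' hpM' hM' vE ℓ hℓ hℓN) (hC_hub A hA M' hpM' hM' vE ℓ hℓ)
    hd x

/-- **(R2) at the hub: `B_ℓ 𝟙 = (ℓ + 1) 𝟙`**, from the auxiliary function. -/
theorem brandtHub_one (Reg : Place (Kap A) ↥(modularFunctionFieldFullC (Kap A) M') → Prop)
    (D : ↥(modularFunctionFieldFullC (Kap A) M')) (c : ℤ) (hc : c ≠ 0)
    (hDE : ∀ e, (vE e).ord D = c)
    (hDoff : ∀ v : Place (Kap A) ↥(modularFunctionFieldFullC (Kap A) M'), Reg v →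
      (¬ ∃ e, vE e = v) → v.ord D = 0)
    (hQ : ∀ e, ∀ w : Place (Kap A) ↥(modularFunctionFieldFullC (Kap A) (M' * ℓ)),
      w.restrictAlong (alphaC (Kap A) M' ℓ) (isIntegral_alphaHub A hA M' hpM' ℓ hℓ hℓN) = vE e →
        w.ord (betaC (Kap A) M' ℓ D) = w.ord (alphaC (Kap A) M' ℓ D))
    (hReg : ∀ e, ∀ w : Place (Kap A) ↥(modularFunctionFieldFullC (Kap A) (M' * ℓ)),
      w.restrictAlong (alphaC (Kap A) M' ℓ) (isIntegral_alphaHub A hA M' hpM' ℓ hℓ hℓN) = vE e →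
        Reg (w.restrictAlong (betaC (Kap A) M' ℓ) (isIntegral_betaHub A hA M' hpM' ℓ hℓ hℓN))) :
    brandtHub A hA M' hpM' vE ℓ hℓ hℓN (fun _ => 1) =
      ((ℓ : ℤ) + 1) • (fun _ => (1 : ZMod p)) :=
  brandtS_one_of_aux (alphaC (Kap A) M' ℓ) (betaC (Kap A) M' ℓ)
    (isIntegral_alphaHub A hA M' hpM' ℓ hℓ hℓN) (isIntegral_betaHub A hA M' hpM' ℓ hℓ hℓN) _
    ((ℓ : ℤ) + 1)
    (fun e => (sum_ramification_alphaHub A hA M' hpM' ℓ hℓ hℓN _ (vE e)).2)
    Reg D c hc hDE hDoff hQ hReg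

end Ell

/-- **The auxiliary function package** (work packages W3 + W4) for the node places `vE`: one
function `D ∈ k₁` with the same order `c ≠ 0` at all nodes, order `0` at the other places of the
chart (`Reg`), and, for every prime `ℓ ∤ M' p`: `β̄ D / ᾱ D` has order `0` at the places over the
nodes, and these places map into the chart under `β̄`.  (The integrality proofs `hα`, `hβ` are
universally quantified: any proofs will do.) -/
structure AuxPackage : Prop where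
  exists_aux : ∃ (Reg : Place (Kap A) ↥(modularFunctionFieldFullC (Kap A) M') → Prop)
    (D : ↥(modularFunctionFieldFullC (Kap A) M')) (c : ℤ), c ≠ 0 ∧
    (∀ e, (vE e).ord D = c) ∧
    (∀ v : Place (Kap A) ↥(modularFunctionFieldFullC (Kap A) M'), Reg v →
      (¬ ∃ e, vE e = v) → v.ord D = 0) ∧
    ∀ (ℓ : ℕ) [NeZero ℓ], ℓ.Prime → ¬ ℓ ∣ M' * p →
      ∀ (hα : (alphaC (Kap A) M' ℓ).toRingHom.IsIntegral)
        (hβ : (betaC (Kap A) M' ℓ).toRingHom.IsIntegral) (e : ι)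
        (w : Place (Kap A) ↥(modularFunctionFieldFullC (Kap A) (M' * ℓ))),
        w.restrictAlong (alphaC (Kap A) M' ℓ) hα = vE e →
          w.ord (betaC (Kap A) M' ℓ D) = w.ord (alphaC (Kap A) M' ℓ D) ∧
          Reg (w.restrictAlong (betaC (Kap A) M' ℓ) hβ)

open Classical in
/-- the Brandt operators at the hub, indexed by `Nat.Primes` (zero at the primes dividing `M' p`). -/
def brandtHubP (ℓ : Nat.Primes) : (ι → ZMod p) →+ (ι → ZMod p) :=
  if h : ¬ (ℓ : ℕ) ∣ M' * p then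
    (haveI : NeZero (ℓ : ℕ) := ⟨ℓ.2.ne_zero⟩; brandtHub A hA M' hpM' vE (ℓ : ℕ) ℓ.2 h) else 0

theorem brandtHubP_eq (ℓ : Nat.Primes) (h : ¬ (ℓ : ℕ) ∣ M' * p) :
    brandtHubP A hA M' hpM' vE ℓ =
      (haveI : NeZero (ℓ : ℕ) := ⟨ℓ.2.ne_zero⟩; brandtHub A hA M' hpM' vE (ℓ : ℕ) ℓ.2 h) := by
  unfold brandtHubP
  rw [dif_pos h]

/-- **The fields `B`, `B_one`, `ρ_T` of `Local66.LocalGeom`** for `R = ι → ZMod p`,
`ρ = rhoHub vE`, `one = 𝟙`, from the auxiliary function package. -/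
theorem exists_brandt_hub (haux : AuxPackage A M' (p := p) vE) :
    ∃ B : Nat.Primes → (ι → ZMod p) →+ (ι → ZMod p),
      (∀ ℓ : Nat.Primes, ¬ (ℓ : ℕ) ∣ M' * p →
        B ℓ (fun _ => 1) = ((ℓ : ℕ) + 1 : ℤ) • (fun _ => (1 : ZMod p))) ∧
      ∀ ℓ : Nat.Primes, ¬ (ℓ : ℕ) ∣ M' * p → ∀ (x : Pic0 Kbar (FF (M' * p)))
        (hx : x ∈ Pic0.torsion Kbar (FF (M' * p)) p)
        (hx' : heckeOperatorBar (M' * p) ℓ x ∈ Pic0.torsion Kbar (FF (M' * p)) p),
        rhoHub A hA M' hpM' hM' vE ⟨_, hx'⟩ = B ℓ (rhoHub A hA M' hpM' hM' vE ⟨x, hx⟩) := by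
  obtain ⟨Reg, D, c, hc, hDE, hDoff, hℓ⟩ := haux.exists_aux
  refine ⟨brandtHubP A hA M' hpM' vE, ?_, ?_⟩
  · intro ℓ hℓN
    haveI : NeZero (ℓ : ℕ) := ⟨ℓ.2.ne_zero⟩
    rw [brandtHubP_eq A hA M' hpM' vE ℓ hℓN]
    have h := brandtHub_one A hA M' hpM' vE (ℓ : ℕ) ℓ.2 hℓN Reg D c hc hDE hDoff
      (fun e w hw => (hℓ (ℓ : ℕ) ℓ.2 hℓN _ (isIntegral_betaHub A hA M' hpM' (ℓ : ℕ) ℓ.2 hℓN)
        e w hw).1)
      (fun e w hw => (hℓ (ℓ : ℕ) ℓ.2 hℓN _ _ e w hw).2)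
    exact h
  · intro ℓ hℓN x hx hx'
    haveI : NeZero (ℓ : ℕ) := ⟨ℓ.2.ne_zero⟩
    rw [brandtHubP_eq A hA M' hpM' vE ℓ hℓN]
    have := hasPrincipalDivisors_level (M' * p) (ℓ : ℕ)
    have hop := heckeOperatorAlong_eq (heckeAlphaBarIntegral_all (M' * p) (ℓ : ℕ) ℓ.2)
      (heckeBetaBarIntegral_all (M' * p) (ℓ : ℕ) ℓ.2)
      (fundamentalIdentityAlong_beta_all (M' * p) (ℓ : ℕ) ℓ.2)
      (finiteAlong_alpha_all (M' * p) (ℓ : ℕ) ℓ.2) (normFormulaAlong_alpha_all (M' * p) (ℓ : ℕ) ℓ.2)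
    have hd : ∀ e, ∀ w : Place (Kap A) ↥(modularFunctionFieldFullC (Kap A) (M' * (ℓ : ℕ))),
        w.restrictAlong (alphaC (Kap A) M' (ℓ : ℕ))
            (isIntegral_alphaHub A hA M' hpM' (ℓ : ℕ) ℓ.2 hℓN) = vE e →
          ∃ e', vE e' = w.restrictAlong (betaC (Kap A) M' (ℓ : ℕ))
            (isIntegral_betaHub A hA M' hpM' (ℓ : ℕ) ℓ.2 hℓN) :=
      hd_of_aux (alphaC (Kap A) M' (ℓ : ℕ)) (betaC (Kap A) M' (ℓ : ℕ)) _ _ Reg D c hc hDE hDoff
        (fun e w hw => (hℓ (ℓ : ℕ) ℓ.2 hℓN _ (isIntegral_betaHub A hA M' hpM' (ℓ : ℕ) ℓ.2 hℓN)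
          e w hw).1)
        (fun e w hw => (hℓ (ℓ : ℕ) ℓ.2 hℓN _ _ e w hw).2)
    have key := rhoHub_heckePic0Bar A hA M' hpM' hM' vE (ℓ : ℕ) ℓ.2 hℓN
      (heckeAlphaBarIntegral_all (M' * p) (ℓ : ℕ) ℓ.2)
      (heckeBetaBarIntegral_all (M' * p) (ℓ : ℕ) ℓ.2)
      (fundamentalIdentityAlong_beta_all (M' * p) (ℓ : ℕ) ℓ.2)
      (finiteAlong_alpha_all (M' * p) (ℓ : ℕ) ℓ.2) (normFormulaAlong_alpha_all (M' * p) (ℓ : ℕ) ℓ.2)
      hd ⟨x, hx⟩
    rw [← key]
    congr 1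
    apply Subtype.ext
    show heckeOperatorBar (M' * p) ℓ x = _
    rw [heckeOperatorBar_apply, hop]

end Fermat.Agent.T1B.Brandt36
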